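/-
M1 (row 38, S44), chapter RAM (helper20): **the predicate `PeuRam`** (M1 plan v2, §2), in the
library's vocabulary: `AK A L = A ∩ L` (`RED/Interface4`), `resK L τ = τ|_L` (`ES/N34/GalBase21`).

`PeuRamData p A L ϖ` : `L/ℚ` finite normal, `μ_p ⊂ L`, `ϖ` a uniformiser of `A ∩ L`,
`e(A ∩ L / p) ∈ {p(p-1), p-1}`, and every `τ` in the inertia group of `A` fixing `μ_p` moves the
elements of `A ∩ L` by multiples of `ϖ²`, and `ϖ` itself NOT by a multiple of `ϖ³` unless `τ` is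
trivial on `L` (wild inertia of order `≤ p` with lower break exactly `1`).

`PeuRam p A H` : such an `L` exists with `Gal(ℚ̄/L) ≤ H`.
-/
import Mathlib
import Fermat.Agent.RED.Interface4
import Fermat.Agent.ES.N34.GalBase21

set_option autoImplicit false

namespace Fermat.Agent.M1.Ram.PeuRamDef20

open Fermat.Agent.RED.Interface4 Fermat.Agent.ES.N34.GalBase21

/-- `τ` fixes the `p`-th roots of unity. -/
def FixesMu (p : ℕ) (τ : Qbar ≃ₐ[ℚ] Qbar) : Prop := ∀ ζ : Qbar, ζ ^ p = 1 → τ ζ = ζ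

/-- **The data of a peu ramifiée situation at `A`** (M1 plan v2, §2). -/
structure PeuRamData (p : ℕ) (A : ValuationSubring Qbar) (L : IntermediateField ℚ Qbar)
    [Normal ℚ L] (ϖ : AK A L) : Prop where
  finite : FiniteDimensional ℚ L
  mu : ∀ ζ : Qbar, ζ ^ p = 1 → ζ ∈ L
  unif : ∀ x : AK A L, ¬ IsUnit x ↔ ϖ ∣ x
  ram : Associated (ϖ ^ (p * (p - 1))) ((p : ℕ) : AK A L) ∨
    Associated (ϖ ^ (p - 1)) ((p : ℕ) : AK A L)
  depth : ∀ τ ∈ A.inertiaSubgroupIn ℚ, FixesMu p τ → ∀ a : AK A L, ∃ b : AK A L,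
    resK L τ (a : L) - (a : L) = ((ϖ ^ 2 * b : AK A L) : L)
  break1 : ∀ τ ∈ A.inertiaSubgroupIn ℚ, FixesMu p τ → resK L τ ≠ 1 →
    ¬ ∃ b : AK A L, resK L τ (ϖ : L) - (ϖ : L) = ((ϖ ^ 3 * b : AK A L) : L)

/-- **`PeuRam`**: the fixed field of `H` is contained in a finite normal `L` carrying peu ramifiée
data at `A`. -/
def PeuRam (p : ℕ) (A : ValuationSubring Qbar) (H : Subgroup (Qbar ≃ₐ[ℚ] Qbar)) : Prop :=
  ∃ (L : IntermediateField ℚ Qbar) (_ : Normal ℚ L) (ϖ : AK A L),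
    PeuRamData p A L ϖ ∧ L.fixingSubgroup ≤ H

end Fermat.Agent.M1.Ram.PeuRamDef20
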