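/-
M1 (row 38, S44), chapter RAM (helper20): **valuation of `ζ_p - 1`** and the first-order action on
it.

* `val_sub_one_pow_eq` : for a valuation `v` on a field, integral on `ℕ`, and a primitive `p`-th
  root of unity `ζ` (`p` prime): `v (ζ - 1) ^ (p - 1) = v p`.
* `pow_sub_one_sub`    : in any commutative ring, `x ^ c - 1 - c (x - 1) ∈ (x - 1)²`.
-/
import Mathlib

set_option autoImplicit false

open Polynomial Finset

namespace Fermat.Agent.M1.Ram.CycloVal20

section Ring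

variable {R : Type*} [CommRing R]

/-- `x ^ c - 1 ≡ c (x - 1)` modulo `(x - 1)²`. -/
theorem pow_sub_one_sub (x : R) (c : ℕ) :
    ∃ b : R, x ^ c - 1 - c * (x - 1) = (x - 1) ^ 2 * b := by
  induction c with
  | zero => exact ⟨0, by simp⟩
  | succ c ih =>
    obtain ⟨b, hb⟩ := ih
    refine ⟨x * b + c, ?_⟩
    push_cast
    linear_combination x * hb

end Ring

section Val

variable {K : Type*} [Field K] {Γ₀ : Type*} [LinearOrderedCommGroupWithZero Γ₀]
  (v : Valuation K Γ₀)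

theorem val_eq_one_of_pow_eq_one {x : K} {n : ℕ} (hn : n ≠ 0) (h : x ^ n = 1) : v x = 1 := by
  have h1 : v x ^ n = 1 := by rw [← map_pow, h, map_one]
  rcases lt_trichotomy (v x) 1 with h2 | h2 | h2
  · exact absurd h1 (ne_of_lt (pow_lt_one₀ zero_le h2 hn))
  · exact h2
  · exact absurd h1 (ne_of_gt (one_lt_pow₀ h2 hn))

theorem val_geom_sum_le_one {x : K} (hx : v x = 1) (n : ℕ) :
    v (∑ i ∈ range n, x ^ i) ≤ 1 := by
  apply Valuation.map_sum_le
  intro i _
  rw [map_pow, hx, one_pow]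

/-- `v (1 - x ^ k) ≤ v (1 - x)` for a unit `x`. -/
theorem val_one_sub_pow_le {x : K} (hx : v x = 1) (k : ℕ) : v (1 - x ^ k) ≤ v (1 - x) := by
  have e : 1 - x ^ k = (1 - x) * ∑ i ∈ range k, x ^ i := (mul_neg_geom_sum x k).symm
  rw [e, map_mul]
  calc v (1 - x) * v (∑ i ∈ range k, x ^ i) ≤ v (1 - x) * 1 :=
        mul_le_mul' le_rfl (val_geom_sum_le_one v hx k)
    _ = v (1 - x) := mul_one _

variable {v}

/-- all `1 - μ`, `μ` a primitive `p`-th root of unity, have the same valuation. -/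
theorem val_one_sub_eq {p : ℕ} (hp : p.Prime) {ζ μ : K} (hζ : IsPrimitiveRoot ζ p)
    (hμ : IsPrimitiveRoot μ p) : v (1 - μ) = v (1 - ζ) := by
  have hp0 : p ≠ 0 := hp.ne_zero
  have : NeZero p := ⟨hp0⟩
  have hvζ : v ζ = 1 := val_eq_one_of_pow_eq_one v hp0 hζ.pow_eq_one
  have hvμ : v μ = 1 := val_eq_one_of_pow_eq_one v hp0 hμ.pow_eq_one
  obtain ⟨k, -, hk⟩ := hζ.eq_pow_of_pow_eq_one hμ.pow_eq_one
  obtain ⟨m, -, hm⟩ := hμ.eq_pow_of_pow_eq_one hζ.pow_eq_one
  apply le_antisymm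
  · rw [← hk]; exact val_one_sub_pow_le v hvζ k
  · rw [← hm]; exact val_one_sub_pow_le v hvμ m

/-- **`v (ζ_p - 1) ^ (p - 1) = v p`.** -/
theorem val_sub_one_pow_eq [DecidableEq K] {p : ℕ} (hp : p.Prime) {ζ : K}
    (hζ : IsPrimitiveRoot ζ p) :
    v (ζ - 1) ^ (p - 1) = v (p : K) := by
  have hp0 : p ≠ 0 := hp.ne_zero
  have : NeZero p := ⟨hp0⟩
  have h1 : (p : K) = ∏ μ ∈ primitiveRoots p K, (1 - μ) := by
    have e := Polynomial.cyclotomic_eq_prod_X_sub_primitiveRoots (K := K) hζ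
    have e1 := congrArg (Polynomial.eval 1) e
    have : Fact p.Prime := ⟨hp⟩
    rw [Polynomial.eval_one_cyclotomic_prime, Polynomial.eval_prod] at e1
    simpa using e1
  rw [h1, map_prod]
  have h2 : ∀ μ ∈ primitiveRoots p K, v (1 - μ) = v (ζ - 1) := by
    intro μ hμ
    rw [val_one_sub_eq hp hζ ((mem_primitiveRoots hp.pos).mp hμ), Valuation.map_sub_swap]
  rw [Finset.prod_congr rfl h2, Finset.prod_const, hζ.card_primitiveRoots,
    Nat.totient_prime hp]

end Val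

end Fermat.Agent.M1.Ram.CycloVal20
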