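/-
M1 (row 38, S44), chapter RAM (helper20): **first consequences of `PeuRamData`** (R1)–(R5) of
report #614.

For `hd : PeuRamData p A L ϖ`:

* `isUnit_or_dvd`, `not_isUnit_unif`, `unif_ne_zero`, `unif_mem_maximalIdeal`            (R1)
* `zetaAK hd ζ hζ : AK A L` (a `p`-th root of unity as an element of `A ∩ L`),
  `zeta_sub_one_pow` : `(ζ - 1) ^ (p - 1) ~ p`, `zeta_sub_one_wild : ζ - 1 ~ ϖ ^ p` when
  `ϖ ^ (p (p - 1)) ~ p`, `zeta_sub_one_tame : ζ - 1 ~ ϖ` when `ϖ ^ (p - 1) ~ p`          (R2)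
* `theta` : `τ ∈ I_A` fixing `μ_p`, nontrivial on `L` ⇒ `τ ϖ = ϖ (1 + θ ϖ)`, `θ` a unit    (R3)
* `chi_mod_sq` : `τ ζ = ζ ^ c` ⇒ `τ z - c z ∈ z² (A ∩ L)`, `z = ζ - 1`                    (R4)
* `tame_depth` : `τ ∈ I_A` ⇒ `τ a - a ∈ ϖ (A ∩ L)`                                       (R5)
-/
import Mathlib
import Fermat.Agent.M1.Ram.PeuRamDef20
import Fermat.Agent.M1.Ram.CycloVal20

set_option autoImplicit false

namespace Fermat.Agent.M1.Ram.PeuRamLemmas20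

open Fermat.Agent.RED.Interface4 Fermat.Agent.ES.N34.GalBase21 Fermat.Agent.RED.DESC
open Fermat.Agent.M1.Ram.PeuRamDef20 Fermat.Agent.M1.Ram.CycloVal20

/-! ### Valuation subrings: associated elements -/

section ValSub

variable {K : Type*} [Field K] (V : ValuationSubring K)

theorem associated_of_val_eq {a b : V} (h : V.valuation (a : K) = V.valuation (b : K)) :
    Associated a b := by
  by_cases hb : (b : K) = 0
  · have ha : (a : K) = 0 := by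
      rw [hb, map_zero] at h
      exact (map_eq_zero _).mp h
    have ha' : a = 0 := Subtype.ext ha
    have hb' : b = 0 := Subtype.ext hb
    rw [ha', hb']
  · have hvb : V.valuation (b : K) ≠ 0 := (map_ne_zero _).mpr hb
    have ha : (a : K) ≠ 0 := by
      intro h0
      rw [h0, map_zero] at h
      exact hvb h.symm
    have h1 : V.valuation ((b : K) / (a : K)) = 1 := by
      rw [map_div₀, h, div_self hvb]
    have hmem : (b : K) / (a : K) ∈ V := (V.valuation_le_one_iff _).mp h1.le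
    have hu : IsUnit (⟨(b : K) / (a : K), hmem⟩ : V) :=
      (V.valuation_eq_one_iff _).mpr h1
    obtain ⟨u, hu'⟩ := hu
    refine ⟨u, ?_⟩
    rw [hu']
    apply Subtype.ext
    show (a : K) * ((b : K) / (a : K)) = (b : K)
    field_simp

theorem val_eq_of_associated {a b : V} (h : Associated a b) :
    V.valuation (a : K) = V.valuation (b : K) := by
  obtain ⟨u, rfl⟩ := h
  have h1 : V.valuation ((u : V) : K) = 1 := (V.valuation_eq_one_iff _).mp u.isUnit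
  show V.valuation (a : K) = V.valuation ((a : K) * ((u : V) : K))
  rw [map_mul, h1, mul_one]

theorem associated_iff_val_eq {a b : V} :
    Associated a b ↔ V.valuation (a : K) = V.valuation (b : K) :=
  ⟨val_eq_of_associated V, associated_of_val_eq V⟩

/-- in a valuation subring, `aⁿ ~ bⁿ ⇒ a ~ b`. -/
theorem associated_of_pow {a b : V} {n : ℕ} (hn : n ≠ 0) (h : Associated (a ^ n) (b ^ n)) :
    Associated a b := by
  rw [associated_iff_val_eq] at h ⊢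
  have h' : V.valuation (a : K) ^ n = V.valuation (b : K) ^ n := by
    simpa using h
  exact (pow_left_inj₀ zero_le zero_le hn).mp h'

end ValSub

variable {p : ℕ} {A : ValuationSubring Qbar} {L : IntermediateField ℚ Qbar} [Normal ℚ L]
  {ϖ : AK A L}

/-! ### (R1) -/

theorem isUnit_or_dvd (hd : PeuRamData p A L ϖ) (a : AK A L) : IsUnit a ∨ ϖ ∣ a := by
  by_cases h : IsUnit a
  · exact Or.inl h
  · exact Or.inr ((hd.unif a).mp h)

theorem not_isUnit_unif (hd : PeuRamData p A L ϖ) : ¬ IsUnit ϖ :=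
  (hd.unif ϖ).mpr dvd_rfl

theorem unif_mem_maximalIdeal (hd : PeuRamData p A L ϖ) :
    ϖ ∈ IsLocalRing.maximalIdeal (AK A L) :=
  (IsLocalRing.mem_maximalIdeal _).mpr (not_isUnit_unif hd)

theorem dvd_of_mem_maximalIdeal (hd : PeuRamData p A L ϖ) {x : AK A L}
    (hx : x ∈ IsLocalRing.maximalIdeal (AK A L)) : ϖ ∣ x :=
  (hd.unif x).mp ((IsLocalRing.mem_maximalIdeal _).mp hx)

omit [Normal ℚ L] in
theorem natCast_ne_zero_AK (hp : p ≠ 0) : ((p : ℕ) : AK A L) ≠ 0 := by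
  intro h
  have h1 : (((p : ℕ) : AK A L) : L) = 0 := by rw [h]; rfl
  have h2 : (((p : ℕ) : AK A L) : L) = (p : L) := by push_cast; rfl
  rw [h2] at h1
  exact hp (Nat.cast_eq_zero.mp h1)

theorem unif_ne_zero (hd : PeuRamData p A L ϖ) (hp : p.Prime) : ϖ ≠ 0 := by
  intro h0
  have hp1 : p - 1 ≠ 0 := Nat.sub_ne_zero_of_lt hp.one_lt
  rcases hd.ram with h | h
  · rw [h0, zero_pow (Nat.mul_ne_zero hp.ne_zero hp1)] at h
    exact natCast_ne_zero_AK hp.ne_zero ((associated_zero_iff_eq_zero _).mp h.symm)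
  · rw [h0, zero_pow hp1] at h
    exact natCast_ne_zero_AK hp.ne_zero ((associated_zero_iff_eq_zero _).mp h.symm)

/-- the valuation of the uniformiser is `< 1`. -/
theorem val_unif_lt_one (hd : PeuRamData p A L ϖ) : (AK A L).valuation (ϖ : L) < 1 := by
  have h1 : (AK A L).valuation (ϖ : L) ≤ 1 := (AK A L).valuation_le_one ϖ
  rcases lt_or_eq_of_le h1 with h | h
  · exact h
  · exact absurd (((AK A L).valuation_eq_one_iff ϖ).mpr h) (not_isUnit_unif hd)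

/-! ### (R5) tame depth -/

theorem tame_depth (hd : PeuRamData p A L ϖ) {τ : Qbar ≃ₐ[ℚ] Qbar}
    (hτ : τ ∈ A.inertiaSubgroupIn ℚ) (a : AK A L) :
    ∃ b : AK A L, resK L τ (a : L) - (a : L) = ((ϖ * b : AK A L) : L) := by
  obtain ⟨b, hb⟩ := dvd_of_mem_maximalIdeal hd (resK_sub_mem_maximalIdeal A L hτ a)
  refine ⟨b, ?_⟩
  rw [← hb]
  rfl

/-! ### (R3) `θ` -/

theorem theta (hd : PeuRamData p A L ϖ) {τ : Qbar ≃ₐ[ℚ] Qbar}
    (hτ : τ ∈ A.inertiaSubgroupIn ℚ) (hμ : FixesMu p τ) (hne : resK L τ ≠ 1) :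
    ∃ θ : AK A L, IsUnit θ ∧ resK L τ (ϖ : L) = ((ϖ * (1 + θ * ϖ) : AK A L) : L) := by
  obtain ⟨b, hb⟩ := hd.depth τ hτ hμ ϖ
  have hbu : IsUnit b := by
    rcases isUnit_or_dvd hd b with h | ⟨b', hb'⟩
    · exact h
    · exfalso
      apply hd.break1 τ hτ hμ hne
      refine ⟨b', ?_⟩
      rw [hb, hb']
      congr 1
      ring
  refine ⟨b, hbu, ?_⟩
  have h1 : resK L τ (ϖ : L) = (ϖ : L) + ((ϖ ^ 2 * b : AK A L) : L) := by
    rw [← hb]; ring
  rw [h1]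
  push_cast
  ring

/-! ### (R2), (R4): `ζ_p - 1` -/

theorem zeta_mem_A (hp : p ≠ 0) {ζ : Qbar} (hζ : ζ ^ p = 1) : ζ ∈ A := by
  apply NumberFieldDVR27.mem_of_isIntegral
  refine ⟨Polynomial.X ^ p - 1, Polynomial.monic_X_pow_sub_C 1 hp, ?_⟩
  simp [hζ]

/-- a `p`-th root of unity as an element of `A ∩ L`. -/
def zetaAK (hd : PeuRamData p A L ϖ) (hp : p ≠ 0) (ζ : Qbar) (hζ : ζ ^ p = 1) : AK A L :=
  ⟨⟨ζ, hd.mu ζ hζ⟩, (NumberFieldDVR27.mem_AK_iff A L _).mpr (zeta_mem_A hp hζ)⟩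

@[simp] theorem coe_zetaAK (hd : PeuRamData p A L ϖ) (hp : p ≠ 0) (ζ : Qbar) (hζ : ζ ^ p = 1) :
    (((zetaAK hd hp ζ hζ : AK A L) : L) : Qbar) = ζ := rfl

/-- **(R4)** `τ ζ = ζ ^ c ⇒ τ z ≡ c z` modulo `z²`, `z = ζ - 1`. -/
theorem chi_mod_sq (hd : PeuRamData p A L ϖ) (hp : p ≠ 0) {ζ : Qbar} (hζ : ζ ^ p = 1)
    (τ : Qbar ≃ₐ[ℚ] Qbar) (c : ℕ) (hτ : τ ζ = ζ ^ c) :
    ∃ b : AK A L, resK L τ ((zetaAK hd hp ζ hζ - 1 : AK A L) : L) -
      c • ((zetaAK hd hp ζ hζ - 1 : AK A L) : L) =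
        (((zetaAK hd hp ζ hζ - 1) ^ 2 * b : AK A L) : L) := by
  obtain ⟨b, hb⟩ := pow_sub_one_sub (zetaAK hd hp ζ hζ) c
  refine ⟨b, ?_⟩
  rw [← hb]
  apply Subtype.ext
  push_cast
  rw [map_sub, map_one]
  simp only [AddSubgroupClass.coe_sub, nsmul_eq_mul, OneMemClass.coe_one, coe_resK]
  rw [show (((zetaAK hd hp ζ hζ : AK A L) : L) : Qbar) = ζ from rfl, hτ]

/-- **(R2)** `(ζ - 1) ^ (p - 1) ~ p`. -/
theorem zeta_sub_one_pow (hd : PeuRamData p A L ϖ) (hp : p.Prime) {ζ : Qbar} (hζ : ζ ^ p = 1)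
    (hζ1 : ζ ≠ 1) :
    Associated ((zetaAK hd hp.ne_zero ζ hζ - 1) ^ (p - 1)) ((p : ℕ) : AK A L) := by
  classical
  rw [associated_iff_val_eq]
  have hprim : IsPrimitiveRoot (⟨ζ, hd.mu ζ hζ⟩ : L) p := by
    have h1 : (⟨ζ, hd.mu ζ hζ⟩ : L) ^ p = 1 := Subtype.ext (by simpa using hζ)
    have h2 : (⟨ζ, hd.mu ζ hζ⟩ : L) ≠ 1 := fun h => hζ1 (congrArg Subtype.val h)
    have : Fact p.Prime := ⟨hp⟩
    have h3 := IsPrimitiveRoot.orderOf (⟨ζ, hd.mu ζ hζ⟩ : L)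
    rwa [orderOf_eq_prime h1 h2] at h3
  have h := val_sub_one_pow_eq (v := (AK A L).valuation) hp hprim
  have e1 : (((zetaAK hd hp.ne_zero ζ hζ - 1) ^ (p - 1) : AK A L) : L) =
      ((⟨ζ, hd.mu ζ hζ⟩ : L) - 1) ^ (p - 1) := rfl
  have e2 : ((((p : ℕ) : AK A L)) : L) = (p : L) := by push_cast; rfl
  rw [e1, e2, map_pow]
  exact h

theorem zeta_sub_one_wild (hd : PeuRamData p A L ϖ) (hp : p.Prime) {ζ : Qbar} (hζ : ζ ^ p = 1)
    (hζ1 : ζ ≠ 1) (hram : Associated (ϖ ^ (p * (p - 1))) ((p : ℕ) : AK A L)) :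
    Associated (zetaAK hd hp.ne_zero ζ hζ - 1) (ϖ ^ p) := by
  have hp1 : p - 1 ≠ 0 := Nat.sub_ne_zero_of_lt hp.one_lt
  apply associated_of_pow (AK A L) hp1
  rw [← pow_mul]
  exact (zeta_sub_one_pow hd hp hζ hζ1).trans hram.symm

theorem zeta_sub_one_tame (hd : PeuRamData p A L ϖ) (hp : p.Prime) {ζ : Qbar} (hζ : ζ ^ p = 1)
    (hζ1 : ζ ≠ 1) (hram : Associated (ϖ ^ (p - 1)) ((p : ℕ) : AK A L)) :
    Associated (zetaAK hd hp.ne_zero ζ hζ - 1) ϖ := by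
  have hp1 : p - 1 ≠ 0 := Nat.sub_ne_zero_of_lt hp.one_lt
  apply associated_of_pow (AK A L) hp1
  exact (zeta_sub_one_pow hd hp hζ hζ1).trans hram.symm

end Fermat.Agent.M1.Ram.PeuRamLemmas20
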