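/-
M1 (row 38, S44), chapter RAM (helper20): **ramification index = exponent of the uniformiser =
cardinality of the image of inertia**.

`A : ValuationSubring ℚ̄` over the prime `q`, `K ⊂ ℚ̄` a number field, `ϖ` a uniformiser of
`A ∩ K` (every non-unit is divisible by `ϖ`), `ϖ ^ n ~ q`.

* `val_unif`            : the adic valuation of `ϖ` at `𝔓 = m_A ∩ 𝓞 K` is `exp (-1)`;
* `ramificationIdx_eq`  : `e(𝔓 | q) = n` (Mathlib's `Ideal.ramificationIdx`);
* `inertiaImage A N`    : the image of `I_A` in `Gal(N/ℚ)` (`N` normal), `= 𝔓.inertia Gal(N/ℚ)`;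
* `card_inertiaImage`   : `#(inertiaImage A N) = n`.
-/
import Mathlib
import Fermat.Agent.M1.Ram.PeuRamLemmas20
import Fermat.Agent.ES.P36.UnrFixed1

set_option autoImplicit false
set_option linter.unusedSectionVars false

open NumberField IsDedekindDomain
open scoped Pointwise

namespace Fermat.Agent.M1.Ram.RamIdx20

open Fermat.Agent.RED.Interface4 Fermat.Agent.RED.DESC.NumberFieldDVR27
  Fermat.Agent.ES.N34.GalBase21 Fermat.Agent.S13.UnramRam Fermat.Agent.S13.UnramBridge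
  Fermat.Agent.M1.Ram.PeuRamLemmas20

/-! ### `ℤᵐ⁰` -/

theorem le_exp_neg_one_of_lt_one {x : WithZero (Multiplicative ℤ)} (hx : x < 1) :
    x ≤ WithZero.exp (-1 : ℤ) := by
  by_cases h0 : x = 0
  · rw [h0]; exact zero_le
  · rw [← WithZero.log_le_iff_le_exp h0]
    have h1 : WithZero.log x < 0 := by
      rw [WithZero.log_lt_iff_lt_exp h0, WithZero.exp_zero]
      exact hx
    omega

section Adic

variable (A : ValuationSubring Qbar) {q : ℕ} (K : IntermediateField ℚ Qbar)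
  [FiniteDimensional ℚ K]

/-- membership in `A ∩ K` through the adic valuation at `m_A ∩ 𝓞 K`. -/
theorem mem_AK_iff_val (hq : q.Prime) (hA : A.LiesOverPrime q) (x : K) :
    x ∈ AK A K ↔ (primeOf A K hq.ne_zero hA).valuation K x ≤ 1 := by
  rw [AK_eq A K hq.ne_zero hA, HeightOneSpectrum.valuationSubringAtPrime_eq_valuationSubring]
  exact Valuation.mem_valuationSubring_iff _ _

theorem isUnit_iff_val (hq : q.Prime) (hA : A.LiesOverPrime q) (x : AK A K) :
    IsUnit x ↔ (primeOf A K hq.ne_zero hA).valuation K (x : K) = 1 := by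
  set v := (primeOf A K hq.ne_zero hA).valuation K with hv
  constructor
  · rintro ⟨u, rfl⟩
    have h1 : v ((u : AK A K) : K) ≤ 1 := (mem_AK_iff_val A K hq hA _).mp (u : AK A K).2
    have h2 : v (((u⁻¹ : (AK A K)ˣ) : AK A K) : K) ≤ 1 :=
      (mem_AK_iff_val A K hq hA _).mp ((u⁻¹ : (AK A K)ˣ) : AK A K).2
    have h3 : v ((u : AK A K) : K) * v (((u⁻¹ : (AK A K)ˣ) : AK A K) : K) = 1 := by
      rw [← map_mul]
      have h4 : ((u : AK A K) : K) * (((u⁻¹ : (AK A K)ˣ) : AK A K) : K) = 1 :=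
        congrArg (fun z : AK A K => (z : K)) (u.mul_inv)
      rw [h4, map_one]
    rcases lt_or_eq_of_le h1 with h | h
    · exfalso
      have : v ((u : AK A K) : K) * v (((u⁻¹ : (AK A K)ˣ) : AK A K) : K) < 1 :=
        mul_lt_one_of_nonneg_of_lt_one_left zero_le h h2
      rw [h3] at this
      exact lt_irrefl _ this
    · exact h
  · intro h
    have hx0 : (x : K) ≠ 0 := by
      intro h0
      rw [h0, map_zero] at h
      exact zero_ne_one h
    have h1 : v ((x : K)⁻¹) = 1 := by rw [map_inv₀, h, inv_one]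
    have hmem : (x : K)⁻¹ ∈ AK A K := (mem_AK_iff_val A K hq hA _).mpr h1.le
    refine IsUnit.of_mul_eq_one ⟨(x : K)⁻¹, hmem⟩ ?_
    apply Subtype.ext
    show (x : K) * (x : K)⁻¹ = 1
    exact mul_inv_cancel₀ hx0

/-- **the adic valuation of a uniformiser of `A ∩ K` is `exp (-1)`.** -/
theorem val_unif (hq : q.Prime) (hA : A.LiesOverPrime q) {ϖ : AK A K}
    (hunif : ∀ x : AK A K, ¬ IsUnit x ↔ ϖ ∣ x) :
    (primeOf A K hq.ne_zero hA).valuation K (ϖ : K) = WithZero.exp (-1 : ℤ) := by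
  set v := (primeOf A K hq.ne_zero hA).valuation K with hv
  have h1 : v (ϖ : K) ≤ 1 := (mem_AK_iff_val A K hq hA _).mp ϖ.2
  have hnu : ¬ IsUnit ϖ := (hunif ϖ).mpr dvd_rfl
  have h2 : v (ϖ : K) < 1 := by
    rcases lt_or_eq_of_le h1 with h | h
    · exact h
    · exact absurd ((isUnit_iff_val A K hq hA ϖ).mpr h) hnu
  apply le_antisymm (le_exp_neg_one_of_lt_one h2)
  obtain ⟨π, hπ⟩ := (primeOf A K hq.ne_zero hA).valuation_exists_uniformizer K
  have hπle : v π ≤ 1 := by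
    rw [hv, hπ, ← WithZero.exp_zero, WithZero.exp_le_exp]; omega
  have hπmem : π ∈ AK A K := (mem_AK_iff_val A K hq hA _).mpr hπle
  have hπnu : ¬ IsUnit (⟨π, hπmem⟩ : AK A K) := by
    rw [isUnit_iff_val A K hq hA]
    show ¬ v π = 1
    rw [hv, hπ, ← WithZero.exp_zero]
    intro h
    have := WithZero.exp_injective h
    omega
  obtain ⟨b, hb⟩ := (hunif _).mp hπnu
  have hb' : π = (ϖ : K) * (b : K) := congrArg (fun z : AK A K => (z : K)) hb
  have hbv : v (b : K) ≤ 1 := (mem_AK_iff_val A K hq hA _).mp b.2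
  calc WithZero.exp (-1 : ℤ) = v π := hπ.symm
    _ = v (ϖ : K) * v (b : K) := by rw [hb', map_mul]
    _ ≤ v (ϖ : K) * 1 := mul_le_mul' le_rfl hbv
    _ = v (ϖ : K) := mul_one _

/-- the adic valuation of `q` when `ϖ ^ n ~ q`. -/
theorem val_natCast (hq : q.Prime) (hA : A.LiesOverPrime q) {ϖ : AK A K}
    (hunif : ∀ x : AK A K, ¬ IsUnit x ↔ ϖ ∣ x) {n : ℕ}
    (hn : Associated (ϖ ^ n) ((q : ℕ) : AK A K)) :
    (primeOf A K hq.ne_zero hA).valuation K (q : K) = WithZero.exp (-(n : ℤ)) := by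
  set v := (primeOf A K hq.ne_zero hA).valuation K with hv
  obtain ⟨u, hu⟩ := hn
  have h1 : v ((u : AK A K) : K) = 1 := (isUnit_iff_val A K hq hA _).mp u.isUnit
  have h2 : (q : K) = (ϖ : K) ^ n * ((u : AK A K) : K) := by
    have := congrArg (fun z : AK A K => (z : K)) hu
    simp only [MulMemClass.coe_mul, SubmonoidClass.coe_pow] at this
    rw [this]
    push_cast
    rfl
  rw [h2, map_mul, map_pow, h1, mul_one, val_unif A K hq hA hunif, ← WithZero.exp_nsmul]
  congr 1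
  simp

/-- **`e(m_A ∩ 𝓞 K | q) = n` when `ϖ ^ n ~ q`.** -/
theorem ramificationIdx_eq (hq : q.Prime) (hA : A.LiesOverPrime q) {ϖ : AK A K}
    (hunif : ∀ x : AK A K, ¬ IsUnit x ↔ ϖ ∣ x) {n : ℕ}
    (hn : Associated (ϖ ^ n) ((q : ℕ) : AK A K)) :
    (primeIdeal A K).ramificationIdx ℤ = n := by
  classical
  set v : HeightOneSpectrum (𝓞 K) := primeOf A K hq.ne_zero hA with hv
  have hvI : v.asIdeal = primeIdeal A K := rfl
  have hprime : (primeIdeal A K).IsPrime := primeIdeal_isPrime A K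
  have hunder : Ideal.span {(q : ℤ)} = (primeIdeal A K).under ℤ := by
    have h1 : (Ideal.span {(q : ℤ)}).IsMaximal :=
      PrincipalIdealRing.isMaximal_of_irreducible
        (Nat.prime_iff_prime_int.mp hq).irreducible
    have h2 : Ideal.span {(q : ℤ)} ≤ (primeIdeal A K).under ℤ := by
      rw [Ideal.span_singleton_le_iff_mem, Ideal.under_def, Ideal.mem_comap]
      have := natCast_mem_primeIdeal A K hA
      simpa using this
    have h3 : (primeIdeal A K).under ℤ ≠ ⊤ := Ideal.IsPrime.ne_top inferInstance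
    exact h1.eq_of_le h3 h2
  have hlies : (primeIdeal A K).LiesOver (Ideal.span {(q : ℤ)}) := ⟨hunder⟩
  have hmap : (Ideal.span {(q : ℤ)}).map (algebraMap ℤ (𝓞 K)) = Ideal.span {(q : 𝓞 K)} := by
    rw [Ideal.map_span, Set.image_singleton]
    simp
  have hq0 : (q : 𝓞 K) ≠ 0 := Nat.cast_ne_zero.mpr hq.ne_zero
  have hp0 : (Ideal.span {(q : ℤ)}).map (algebraMap ℤ (𝓞 K)) ≠ ⊥ := by
    rw [hmap, ne_eq, Ideal.span_singleton_eq_bot]
    exact hq0
  rw [Ideal.IsDedekindDomain.ramificationIdx_eq_multiplicity (Ideal.span {(q : ℤ)})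
    (primeIdeal A K) hp0, hmap]
  -- the integral valuation of `q`
  have hval : v.intValuation (q : 𝓞 K) = WithZero.exp (-(n : ℤ)) := by
    rw [← HeightOneSpectrum.valuation_of_algebraMap (K := K)]
    have h5 : (algebraMap (𝓞 K) K (q : 𝓞 K)) = (q : K) := by simp
    have h6 := val_natCast A K hq hA hunif hn
    rw [← h5] at h6
    exact h6
  apply multiplicity_eq_of_dvd_of_not_dvd
  · rw [← hvI, ← HeightOneSpectrum.intValuation_le_pow_iff_dvd, hval]
  · rw [← hvI, ← HeightOneSpectrum.intValuation_le_pow_iff_dvd, hval, WithZero.exp_le_exp]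
    push_cast
    omega

end Adic

/-! ### The image of inertia in `Gal(N/ℚ)` -/

section Galois

open Fermat.Agent.ES.RED.GaloisRed21

variable (A : ValuationSubring Qbar) {q : ℕ} (N : IntermediateField ℚ Qbar)
  [FiniteDimensional ℚ N] [Normal ℚ N]

/-- the image of the inertia group `I_A` in `Gal(N/ℚ)`. -/
noncomputable def inertiaImage : Subgroup (N ≃ₐ[ℚ] N) := (A.inertiaSubgroupIn ℚ).map (resKHom N)

theorem mem_inertiaImage {g : N ≃ₐ[ℚ] N} :
    g ∈ inertiaImage A N ↔ ∃ τ ∈ A.inertiaSubgroupIn ℚ, resK N τ = g := Subgroup.mem_map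

theorem resK_mem_inertiaImage {τ : Qbar ≃ₐ[ℚ] Qbar} (hτ : τ ∈ A.inertiaSubgroupIn ℚ) :
    resK N τ ∈ inertiaImage A N := (mem_inertiaImage A N).mpr ⟨τ, hτ, rfl⟩

/-- the coordinates of `g • x - x` for `x : 𝓞 N`. -/
theorem coe_smul_sub (g : N ≃ₐ[ℚ] N) (x : 𝓞 N) :
    ((g • x - x : 𝓞 N) : N) = g (x : N) - (x : N) := by
  change algebraMap (𝓞 N) N (g • x - x) = g (x : N) - (x : N)
  rw [map_sub, algebraMap.smul']
  rfl

theorem inertiaImage_le : inertiaImage A N ≤ (primeIdeal A N).inertia Gal(N/ℚ) := by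
  intro g hg
  obtain ⟨τ, hτ, rfl⟩ := (mem_inertiaImage A N).mp hg
  intro x
  show (resK N τ • x - x : 𝓞 N) ∈ primeIdeal A N
  rw [mem_primeIdeal, coe_smul_sub]
  have h := sub_mem_maximalIdeal_of_mem_inertia A hτ ⟨((x : N) : Qbar), coe_int_mem A N x⟩
  rw [ValuationSubring.valuation_lt_one_iff] at h
  have e : (((resK N τ (x : N) - (x : N) : N)) : Qbar) =
      ((sigmaA A ⟨τ, mem_decomposition_of_mem_inertia A hτ⟩
        ⟨((x : N) : Qbar), coe_int_mem A N x⟩ - ⟨((x : N) : Qbar), coe_int_mem A N x⟩ : A) :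
        Qbar) := by
    push_cast
    rw [coe_resK]
    rfl
  rw [e]
  exact h

theorem le_inertiaImage (hq : q.Prime) (hA : A.LiesOverPrime q) :
    (primeIdeal A N).inertia Gal(N/ℚ) ≤ inertiaImage A N := by
  intro g hg
  have hg' : ∀ x : N, IsIntegral ℤ x → (((g x : N) : Qbar) - x) ∈ A.nonunits := by
    intro x hx
    set x' : 𝓞 N := IsIntegralClosure.mk' (𝓞 N) x hx with hx'
    have hxx : algebraMap (𝓞 N) N x' = x := IsIntegralClosure.algebraMap_mk' (𝓞 N) x hx
    have h1 : g • x' - x' ∈ primeIdeal A N := hg x'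
    rw [mem_primeIdeal, coe_smul_sub] at h1
    have hxx' : (x' : N) = x := hxx
    rw [hxx'] at h1
    rw [A.mem_nonunits_iff]
    simpa using h1
  obtain ⟨τ, hτI, hτN⟩ := exists_inertia_lift N A hq hA g hg'
  refine (mem_inertiaImage A N).mpr ⟨τ, hτI, ?_⟩
  ext x
  rw [coe_resK, hτN]

theorem inertiaImage_eq (hq : q.Prime) (hA : A.LiesOverPrime q) :
    inertiaImage A N = (primeIdeal A N).inertia Gal(N/ℚ) :=
  le_antisymm (inertiaImage_le A N) (le_inertiaImage A N hq hA)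

/-- `#I(𝔓 | q) = e(𝔓 | q)` (Mathlib), for `𝔓 = m_A ∩ 𝓞 N`. -/
theorem card_inertia_primeIdeal :
    Nat.card ((primeIdeal A N).inertia Gal(N/ℚ)) = (primeIdeal A N).ramificationIdx ℤ := by
  have hgal : IsGalois ℚ N := ⟨⟩
  have hprime : (primeIdeal A N).IsPrime := primeIdeal_isPrime A N
  rw [Ideal.card_inertia_eq_ramificationIdxIn ((primeIdeal A N).under ℤ) (primeIdeal A N),
    Ideal.ramificationIdxIn_eq_ramificationIdx ((primeIdeal A N).under ℤ) (primeIdeal A N)
      Gal(N/ℚ)]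

/-- **the image of inertia in `Gal(N/ℚ)` has `n` elements when `ϖ ^ n ~ q`.** -/
theorem card_inertiaImage (hq : q.Prime) (hA : A.LiesOverPrime q) {ϖ : AK A N}
    (hunif : ∀ x : AK A N, ¬ IsUnit x ↔ ϖ ∣ x) {n : ℕ}
    (hn : Associated (ϖ ^ n) ((q : ℕ) : AK A N)) :
    Nat.card (inertiaImage A N) = n := by
  rw [inertiaImage_eq A N hq hA, card_inertia_primeIdeal, ramificationIdx_eq A N hq hA hunif hn]

end Galois

end Fermat.Agent.M1.Ram.RamIdx20
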