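/-
M1 (row 38, S44), chapter RAM (helper20): **the wild inertia image is cyclic of order `1` or `p`**
(R7).

For `hd : PeuRamData p A L ϖ`, `p` prime, `A` over `p`:

* `resK_pow_prime_eq_one` : `τ ∈ I_A` fixing `μ_p` ⇒ `(τ|_L) ^ p = 1`
  (`τ^k ϖ ≡ ϖ + k (τ ϖ - ϖ)` modulo `ϖ³`, and `p ∈ (ϖ)`; then `break1`);
* `wildImage A L p` : the image in `Gal(L/ℚ)` of `{τ ∈ I_A | τ fixes μ_p}`;
  `card_wildImage : #wildImage = 1 ∨ #wildImage = p` (a `p`-group whose order divides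
  `e ∈ {p (p - 1), p - 1}`, `e = #(image of I_A)` by `RamIdx20`);
* `exists_wild_generator` : `∃ g₀ ∈ I_A` fixing `μ_p` with `(g₀|_L) ^ p = 1` and every `τ ∈ I_A` fixing
  `μ_p` restricting to a power of `g₀|_L`  — the `g₀` of `Tri/Abstract45.Contract`.
-/
import Mathlib
import Fermat.Agent.M1.Ram.RamIdx20

set_option autoImplicit false
set_option linter.unusedSectionVars false

namespace Fermat.Agent.M1.Ram.WildCyclic20

/-! ### Abstract: iterating an endomorphism of depth `2` -/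

section Abstract

variable {R : Type*} [CommRing R]

/-- if `σ a ≡ a` modulo `ϖ²` for all `a`, then `σ^k ϖ ≡ ϖ + k (σ ϖ - ϖ)` modulo `ϖ³`. -/
theorem iterate_sub (σ : R →+* R) (ϖ : R) (hdepth : ∀ a : R, ∃ b : R, σ a - a = ϖ ^ 2 * b)
    (k : ℕ) : ∃ c : R, σ^[k] ϖ - ϖ = k * (σ ϖ - ϖ) + ϖ ^ 3 * c := by
  obtain ⟨b₀, h0⟩ := hdepth ϖ
  obtain ⟨b₁, h1⟩ := hdepth b₀
  have hs : σ ϖ = ϖ + ϖ ^ 2 * b₀ := by rw [← h0]; ring
  have hb : σ b₀ = b₀ + ϖ ^ 2 * b₁ := by rw [← h1]; ring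
  induction k with
  | zero => exact ⟨0, by simp⟩
  | succ k ih =>
    obtain ⟨c, hc⟩ := ih
    have hx : σ^[k] ϖ = ϖ + k * (σ ϖ - ϖ) + ϖ ^ 3 * c := by linear_combination hc
    refine ⟨k * ((b₀ + ϖ ^ 2 * b₁) * (2 * b₀ + ϖ * b₀ ^ 2) + ϖ * b₁) +
      (1 + ϖ * b₀) ^ 3 * σ c, ?_⟩
    rw [Function.iterate_succ_apply', hx]
    simp only [map_add, map_mul, map_sub, map_pow, map_natCast, hs, hb]
    push_cast
    ring

/-- … hence `σ^p ϖ ≡ ϖ` modulo `ϖ³` when `p ∈ (ϖ)`. -/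
theorem iterate_sub_of_dvd (σ : R →+* R) (ϖ : R)
    (hdepth : ∀ a : R, ∃ b : R, σ a - a = ϖ ^ 2 * b) (p : ℕ) (hp : ϖ ∣ (p : R)) :
    ∃ c : R, σ^[p] ϖ - ϖ = ϖ ^ 3 * c := by
  obtain ⟨c, hc⟩ := iterate_sub σ ϖ hdepth p
  obtain ⟨b₀, h0⟩ := hdepth ϖ
  obtain ⟨r, hr⟩ := hp
  refine ⟨r * b₀ + c, ?_⟩
  rw [hc, h0, hr]
  ring

end Abstract

open Fermat.Agent.RED.Interface4 Fermat.Agent.RED.DESC.NumberFieldDVR27
  Fermat.Agent.ES.N34.GalBase21 Fermat.Agent.M1.Ram.PeuRamDef20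
  Fermat.Agent.M1.Ram.PeuRamLemmas20 Fermat.Agent.M1.Ram.RamIdx20

/-! ### The action of the decomposition group on `A ∩ L` -/

section Act

variable {A : ValuationSubring Qbar} (L : IntermediateField ℚ Qbar) [Normal ℚ L]

/-- the action of `τ ∈ D_A` on `A ∩ L`. -/
noncomputable def resAK {τ : Qbar ≃ₐ[ℚ] Qbar} (hτ : τ ∈ A.decompositionSubgroup ℚ) :
    AK A L →+* AK A L :=
  ((resK L τ : L ≃ₐ[ℚ] L) : L →+* L).restrict (AK A L) (AK A L)
    (fun _ hx => resK_mem_AK A L hτ hx)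

@[simp] theorem coe_resAK {τ : Qbar ≃ₐ[ℚ] Qbar} (hτ : τ ∈ A.decompositionSubgroup ℚ)
    (a : AK A L) : ((resAK L hτ a : AK A L) : L) = resK L τ (a : L) := rfl

theorem coe_resAK_iterate {τ : Qbar ≃ₐ[ℚ] Qbar} (hτ : τ ∈ A.decompositionSubgroup ℚ)
    (k : ℕ) (a : AK A L) : (((resAK L hτ)^[k] a : AK A L) : L) = resK L (τ ^ k) (a : L) := by
  induction k with
  | zero => simp [resK_one]
  | succ k ih =>
    rw [Function.iterate_succ_apply', coe_resAK, ih, pow_succ', resK_mul]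
    rfl

end Act

/-! ### The subgroup fixing `μ_p` -/

/-- the subgroup of `G_ℚ` fixing the `p`-th roots of unity. -/
def muFixer (p : ℕ) : Subgroup (Qbar ≃ₐ[ℚ] Qbar) where
  carrier := {τ | FixesMu p τ}
  mul_mem' := by
    intro σ τ hσ hτ ζ hζ
    rw [AlgEquiv.mul_apply, hτ ζ hζ, hσ ζ hζ]
  one_mem' := fun _ _ => rfl
  inv_mem' := by
    intro σ hσ ζ hζ
    have h := hσ ζ hζ
    calc σ⁻¹ ζ = σ⁻¹ (σ ζ) := by rw [h]
      _ = ζ := by
        rw [← AlgEquiv.mul_apply, inv_mul_cancel]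
        rfl

theorem mem_muFixer {p : ℕ} {τ : Qbar ≃ₐ[ℚ] Qbar} : τ ∈ muFixer p ↔ FixesMu p τ := Iff.rfl

section Wild

variable {p : ℕ} {A : ValuationSubring Qbar} {L : IntermediateField ℚ Qbar} [Normal ℚ L]
  {ϖ : AK A L}

theorem unif_dvd_natCast (hd : PeuRamData p A L ϖ) (hp : p.Prime) : ϖ ∣ ((p : ℕ) : AK A L) := by
  have hp1 : p - 1 ≠ 0 := Nat.sub_ne_zero_of_lt hp.one_lt
  rcases hd.ram with h | h
  · exact (dvd_pow_self ϖ (Nat.mul_ne_zero hp.ne_zero hp1)).trans h.dvd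
  · exact (dvd_pow_self ϖ hp1).trans h.dvd

/-- **`(τ|_L) ^ p = 1` for `τ ∈ I_A` fixing `μ_p`.** -/
theorem resK_pow_prime_eq_one (hd : PeuRamData p A L ϖ) (hp : p.Prime) {τ : Qbar ≃ₐ[ℚ] Qbar}
    (hτ : τ ∈ A.inertiaSubgroupIn ℚ) (hμ : FixesMu p τ) : resK L τ ^ p = 1 := by
  by_contra hne
  have hτD := mem_decomposition_of_mem_inertia A hτ
  have e1 : resK L (τ ^ p) = resK L τ ^ p := map_pow (resKHom L) τ p
  have hτp : τ ^ p ∈ A.inertiaSubgroupIn ℚ := pow_mem hτ p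
  have hμp : FixesMu p (τ ^ p) := (mem_muFixer).mp (pow_mem (mem_muFixer.mpr hμ) p)
  apply hd.break1 (τ ^ p) hτp hμp (by rw [e1]; exact hne)
  have hdepth : ∀ a : AK A L, ∃ b : AK A L, resAK L hτD a - a = ϖ ^ 2 * b := by
    intro a
    obtain ⟨b, hb⟩ := hd.depth τ hτ hμ a
    exact ⟨b, Subtype.ext hb⟩
  obtain ⟨c, hc⟩ := iterate_sub_of_dvd (resAK L hτD) ϖ hdepth p (unif_dvd_natCast hd hp)
  refine ⟨c, ?_⟩
  rw [← hc]
  show _ = (((resAK L hτD)^[p] ϖ : AK A L) : L) - (ϖ : L)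
  rw [coe_resAK_iterate]

/-- the image in `Gal(L/ℚ)` of the elements of `I_A` fixing `μ_p`. -/
noncomputable def wildImage (A : ValuationSubring Qbar) (L : IntermediateField ℚ Qbar)
    [Normal ℚ L] (p : ℕ) : Subgroup (L ≃ₐ[ℚ] L) :=
  (A.inertiaSubgroupIn ℚ ⊓ muFixer p).map (resKHom L)

theorem mem_wildImage {g : L ≃ₐ[ℚ] L} :
    g ∈ wildImage A L p ↔ ∃ τ ∈ A.inertiaSubgroupIn ℚ, FixesMu p τ ∧ resK L τ = g := by
  unfold wildImage
  rw [Subgroup.mem_map]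
  constructor
  · rintro ⟨τ, ⟨h1, h2⟩, h3⟩
    exact ⟨τ, h1, h2, h3⟩
  · rintro ⟨τ, h1, h2, h3⟩
    exact ⟨τ, ⟨h1, h2⟩, h3⟩

theorem wildImage_le [FiniteDimensional ℚ L] : wildImage A L p ≤ inertiaImage A L :=
  Subgroup.map_mono inf_le_left

theorem pow_prime_eq_one_of_mem_wildImage (hd : PeuRamData p A L ϖ) (hp : p.Prime)
    {g : L ≃ₐ[ℚ] L} (hg : g ∈ wildImage A L p) : g ^ p = 1 := by
  obtain ⟨τ, h1, h2, rfl⟩ := mem_wildImage.mp hg
  exact resK_pow_prime_eq_one hd hp h1 h2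

/-- **the wild inertia image has order `1` or `p`.** -/
theorem card_wildImage_dvd (hd : PeuRamData p A L ϖ) (hp : p.Prime) (hA : A.LiesOverPrime p) :
    Nat.card (wildImage A L p) ∣ p := by
  have := hd.finite
  have : Fact p.Prime := ⟨hp⟩
  have hpg : IsPGroup p (wildImage A L p) := by
    intro g
    refine ⟨1, ?_⟩
    rw [pow_one]
    apply Subtype.ext
    have := pow_prime_eq_one_of_mem_wildImage hd hp g.2
    simpa using this
  obtain ⟨n, hn⟩ := hpg.exists_card_eq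
  have hp1 : 0 < p - 1 := Nat.sub_pos_of_lt hp.one_lt
  have hdvd : Nat.card (wildImage A L p) ∣ p * (p - 1) := by
    have h1 := Subgroup.card_dvd_of_le (wildImage_le (A := A) (L := L) (p := p))
    rcases hd.ram with h | h
    · rwa [card_inertiaImage A L hp hA hd.unif h] at h1
    · rw [card_inertiaImage A L hp hA hd.unif h] at h1
      exact h1.trans (dvd_mul_left _ _)
  rw [hn] at hdvd ⊢
  have hn1 : n ≤ 1 := by
    by_contra hcon
    have h2 : 2 ≤ n := by omega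
    have h3 : p ^ 2 ∣ p * (p - 1) := (pow_dvd_pow p h2).trans hdvd
    rw [pow_two] at h3
    have h4 : p ∣ p - 1 := Nat.dvd_of_mul_dvd_mul_left hp.pos h3
    have h5 := Nat.le_of_dvd hp1 h4
    omega
  calc p ^ n ∣ p ^ 1 := pow_dvd_pow p hn1
    _ = p := pow_one p

/-- **(R7)** the wild inertia image is cyclic: there is a generator `g₀`. -/
theorem exists_wild_generator (hd : PeuRamData p A L ϖ) (hp : p.Prime)
    (hA : A.LiesOverPrime p) :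
    ∃ g₀ ∈ A.inertiaSubgroupIn ℚ, FixesMu p g₀ ∧ resK L g₀ ^ p = 1 ∧
      ∀ τ ∈ A.inertiaSubgroupIn ℚ, FixesMu p τ → ∃ k : ℕ, resK L τ = resK L g₀ ^ k := by
  have := hd.finite
  have : Fact p.Prime := ⟨hp⟩
  have : IsCyclic (wildImage A L p) := isCyclic_of_card_dvd_prime (card_wildImage_dvd hd hp hA)
  obtain ⟨g, hg⟩ := IsCyclic.exists_monoid_generator (α := wildImage A L p)
  obtain ⟨g₀, h1, h2, h3⟩ := mem_wildImage.mp g.2
  refine ⟨g₀, h1, h2, resK_pow_prime_eq_one hd hp h1 h2, ?_⟩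
  intro τ hτ hμ
  obtain ⟨k, hk⟩ := hg ⟨resK L τ, mem_wildImage.mpr ⟨τ, hτ, hμ, rfl⟩⟩
  refine ⟨k, ?_⟩
  have := congrArg (fun x : wildImage A L p => (x : L ≃ₐ[ℚ] L)) hk
  simp only [SubmonoidClass.coe_pow] at this
  rw [h3]
  exact this.symm

end Wild

/-! ### Consequences for fixed points -/

section Fixed

variable {L : IntermediateField ℚ Qbar} [Normal ℚ L]

theorem mem_fixingSubgroup_of_resK_eq_one {σ : Qbar ≃ₐ[ℚ] Qbar} (h : resK L σ = 1) :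
    σ ∈ L.fixingSubgroup := by
  rw [IntermediateField.mem_fixingSubgroup_iff]
  intro x hx
  have h1 := coe_resK L σ ⟨x, hx⟩
  rw [h] at h1
  exact h1.symm

theorem resK_eq_one_of_mem_fixingSubgroup {σ : Qbar ≃ₐ[ℚ] Qbar} (h : σ ∈ L.fixingSubgroup) :
    resK L σ = 1 := by
  rw [IntermediateField.mem_fixingSubgroup_iff] at h
  ext x
  rw [coe_resK]
  exact h x x.2

/-- if `τ|_L` is a power of `g₀|_L`, a point fixed by `Gal(ℚ̄/L)` and by `g₀` is fixed by `τ`. -/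
theorem smul_eq_self_of_resK_eq_pow {X : Type*} [MulAction (Qbar ≃ₐ[ℚ] Qbar) X]
    {g₀ τ : Qbar ≃ₐ[ℚ] Qbar} {k : ℕ} (h : resK L τ = resK L g₀ ^ k) (x : X)
    (hL : ∀ σ ∈ L.fixingSubgroup, σ • x = x) (hg : g₀ • x = x) : τ • x = x := by
  have h1 : resK L ((g₀ ^ k)⁻¹ * τ) = 1 := by
    rw [resK_mul, resK_inv, h]
    have : resK L (g₀ ^ k) = resK L g₀ ^ k := map_pow (resKHom L) g₀ k
    rw [this, inv_mul_cancel]
  have h2 := hL _ (mem_fixingSubgroup_of_resK_eq_one h1)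
  have h3 : ∀ n : ℕ, g₀ ^ n • x = x := by
    intro n
    induction n with
    | zero => simp
    | succ n ih => rw [pow_succ, mul_smul, hg, ih]
  calc τ • x = (g₀ ^ k * ((g₀ ^ k)⁻¹ * τ)) • x := by rw [mul_inv_cancel_left]
    _ = g₀ ^ k • (((g₀ ^ k)⁻¹ * τ) • x) := mul_smul _ _ _
    _ = x := by rw [h2, h3]

end Fixed

end Fermat.Agent.M1.Ram.WildCyclic20
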