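/-
M1 (row 38, S44), chapter RAM (helper20): **(R8) the tame multiplier of the uniformiser.**

For `hd : PeuRamData p A L ϖ` and `τ ∈ I_A` acting on `μ_p` through `ζ ↦ ζ ^ c`:

  `τ ϖ = ϖ ε`,  `ε` a unit of `A ∩ L`,  and  `ε ^ p ≡ c`  modulo `ϖ`  when `e = p (p - 1)`
                                              (`ε ≡ c`  modulo `ϖ`  when `e = p - 1`).

This is the hypothesis `∃ d, ε ^ n - c = π * d` of `Car/Defs43.smul_sub_nsmul_mem_cart` at level
`n = p` OVER `L` (resp. `n = 1` in the tame case): inertia acts on `gr^p J(L)` through the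
cyclotomic character.  With it the tame field `K₁ = L^{wild}` is NOT needed in `Tri/Abstract45`:
instantiate `J0K = J1K := JL p`, `J2K := JL (p + 1)`.
-/
import Mathlib
import Fermat.Agent.M1.Ram.WildCyclic20

set_option autoImplicit false
set_option linter.unusedSectionVars false

namespace Fermat.Agent.M1.Ram.TameEps20

/-! ### Abstract computation -/

section Abstract

variable {R : Type*} [CommRing R] [IsDomain R]

/-- `z u = ϖ ^ m`, `σ ϖ = ϖ ε`, `σ z ≡ c z` mod `z²`, `σ u ≡ u` mod `ϖ`, `ϖ ∣ z ≠ 0`, `u` a unit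
`⟹ ε ^ m ≡ c` mod `ϖ`. -/
theorem eps_pow_sub (σ : R →+* R) {ϖ z u ε b b' : R} {m : ℕ} (c : ℕ) (h1 : z * u = ϖ ^ m)
    (h2 : σ ϖ = ϖ * ε) (h3 : σ z = c * z + z ^ 2 * b) (h4 : σ u = u + ϖ * b') (hz : ϖ ∣ z)
    (hz0 : z ≠ 0) (hu : IsUnit u) : ∃ d : R, ε ^ m - c = ϖ * d := by
  obtain ⟨r, hr⟩ := hz
  obtain ⟨w, hw⟩ := hu.exists_right_inv
  -- apply `σ` to `z u = ϖ ^ m`
  have h5 : σ z * σ u = (ϖ * ε) ^ m := by rw [← map_mul, h1, map_pow, h2]
  rw [h3, h4, mul_pow, ← h1] at h5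
  -- cancel `z`
  have h6 : (c + z * b) * (u + ϖ * b') = u * ε ^ m := by
    apply mul_left_cancel₀ hz0
    linear_combination h5
  refine ⟨w * (c * b' + r * b * (u + ϖ * b')), ?_⟩
  have h7 : u * (ε ^ m - c) = ϖ * (c * b' + r * b * (u + ϖ * b')) := by
    rw [hr] at h6
    linear_combination -h6
  calc ε ^ m - c = (u * w) * (ε ^ m - c) := by rw [hw, one_mul]
    _ = w * (u * (ε ^ m - c)) := by ring
    _ = ϖ * (w * (c * b' + r * b * (u + ϖ * b'))) := by rw [h7]; ring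

end Abstract

open Fermat.Agent.RED.Interface4 Fermat.Agent.RED.DESC.NumberFieldDVR27
  Fermat.Agent.ES.N34.GalBase21 Fermat.Agent.M1.Ram.PeuRamDef20
  Fermat.Agent.M1.Ram.PeuRamLemmas20 Fermat.Agent.M1.Ram.WildCyclic20

variable {p : ℕ} {A : ValuationSubring Qbar} {L : IntermediateField ℚ Qbar} [Normal ℚ L]
  {ϖ : AK A L}

/-- `τ ϖ = ϖ ε` with `ε` a unit, for `τ ∈ I_A`. -/
theorem exists_eps (hd : PeuRamData p A L ϖ) (hp : p.Prime) {τ : Qbar ≃ₐ[ℚ] Qbar}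
    (hτ : τ ∈ A.inertiaSubgroupIn ℚ) :
    ∃ ε : AK A L, IsUnit ε ∧ resAK L (mem_decomposition_of_mem_inertia A hτ) ϖ = ϖ * ε := by
  have hτD := mem_decomposition_of_mem_inertia A hτ
  have hτi : τ⁻¹ ∈ A.inertiaSubgroupIn ℚ := inv_mem hτ
  have hτiD := mem_decomposition_of_mem_inertia A hτi
  obtain ⟨b, hb⟩ := tame_depth hd hτ ϖ
  obtain ⟨b', hb'⟩ := tame_depth hd hτi ϖ
  have e1 : resAK L hτD ϖ = ϖ * (1 + b) := by
    apply Subtype.ext
    have : resK L τ (ϖ : L) = (ϖ : L) + ((ϖ * b : AK A L) : L) := by rw [← hb]; ring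
    rw [coe_resAK, this]
    push_cast
    ring
  have e2 : resAK L hτiD ϖ = ϖ * (1 + b') := by
    apply Subtype.ext
    have : resK L τ⁻¹ (ϖ : L) = (ϖ : L) + ((ϖ * b' : AK A L) : L) := by rw [← hb']; ring
    rw [coe_resAK, this]
    push_cast
    ring
  refine ⟨1 + b, ?_, e1⟩
  -- `τ⁻¹ (τ ϖ) = ϖ`
  have e3 : resAK L hτiD (resAK L hτD ϖ) = ϖ := by
    apply Subtype.ext
    rw [coe_resAK, coe_resAK, resK_inv]
    exact (resK L τ).symm_apply_apply _
  rw [e1, map_mul, e2] at e3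
  have hϖ0 := unif_ne_zero hd hp
  have e4 : (1 + b') * resAK L hτiD (1 + b) = 1 := by
    apply mul_left_cancel₀ hϖ0
    rw [mul_one, ← mul_assoc]
    exact e3
  -- `τ⁻¹ (1 + b)` is a unit, hence so is `1 + b`
  have hu : IsUnit (resAK L hτiD (1 + b)) := IsUnit.of_mul_eq_one_right _ e4
  have e5 : resAK L hτD (resAK L hτiD (1 + b)) = 1 + b := by
    apply Subtype.ext
    rw [coe_resAK, coe_resAK, resK_inv]
    exact (resK L τ).apply_symm_apply _
  rw [← e5]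
  exact hu.map (resAK L hτD)

/-- **(R8)** `ε ^ p ≡ c` (wild case) resp. `ε ≡ c` (tame case) modulo `ϖ`. -/
theorem eps_pow_sub_of_cyclo (hd : PeuRamData p A L ϖ) (hp : p.Prime) {τ : Qbar ≃ₐ[ℚ] Qbar}
    (hτ : τ ∈ A.inertiaSubgroupIn ℚ) {ζ : Qbar} (hζ : ζ ^ p = 1) (hζ1 : ζ ≠ 1) (c : ℕ)
    (hc : τ ζ = ζ ^ c) {ε : AK A L}
    (hε : resAK L (mem_decomposition_of_mem_inertia A hτ) ϖ = ϖ * ε) :
    (Associated (ϖ ^ (p * (p - 1))) ((p : ℕ) : AK A L) → ∃ d : AK A L, ε ^ p - c = ϖ * d) ∧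
    (Associated (ϖ ^ (p - 1)) ((p : ℕ) : AK A L) → ∃ d : AK A L, ε ^ 1 - c = ϖ * d) := by
  have hτD := mem_decomposition_of_mem_inertia A hτ
  set z : AK A L := zetaAK hd hp.ne_zero ζ hζ - 1 with hz
  -- `σ z = c z + z² b`
  obtain ⟨b, hb⟩ := chi_mod_sq hd hp.ne_zero hζ τ c hc
  have h3 : resAK L hτD z = c * z + z ^ 2 * b := by
    apply Subtype.ext
    rw [coe_resAK]
    have : resK L τ (z : L) = c • (z : L) + ((z ^ 2 * b : AK A L) : L) := by
      rw [← hb]; ring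
    rw [this]
    push_cast
    simp [nsmul_eq_mul]
  -- `z` is a nonzero non-unit
  have hpz := zeta_sub_one_pow hd hp hζ hζ1
  have hp1 : p - 1 ≠ 0 := Nat.sub_ne_zero_of_lt hp.one_lt
  have hz0 : z ≠ 0 := by
    intro h0
    rw [← hz, h0, zero_pow hp1] at hpz
    exact natCast_ne_zero_AK hp.ne_zero ((associated_zero_iff_eq_zero _).mp hpz.symm)
  have hzdvd : ∀ m : ℕ, m ≠ 0 → Associated z (ϖ ^ m) → ϖ ∣ z := fun m hm h =>
    (dvd_pow_self ϖ hm).trans h.symm.dvd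
  have key : ∀ m : ℕ, m ≠ 0 → Associated z (ϖ ^ m) → ∃ d : AK A L, ε ^ m - c = ϖ * d := by
    intro m hm h
    obtain ⟨u, hu⟩ := h
    obtain ⟨b', hb'⟩ := tame_depth hd hτ (u : AK A L)
    have h4 : resAK L hτD (u : AK A L) = (u : AK A L) + ϖ * b' := by
      apply Subtype.ext
      rw [coe_resAK]
      have : resK L τ ((u : AK A L) : L) = ((u : AK A L) : L) + ((ϖ * b' : AK A L) : L) := by
        rw [← hb']; ring
      rw [this]
      push_cast
      rfl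
    exact eps_pow_sub (resAK L hτD) c hu hε h3 h4 (hzdvd m hm ⟨u, hu⟩) hz0 u.isUnit
  constructor
  · intro hram
    exact key p hp.ne_zero (zeta_sub_one_wild hd hp hζ hζ1 hram)
  · intro hram
    have h := zeta_sub_one_tame hd hp hζ hζ1 hram
    have h' : Associated z (ϖ ^ 1) := by rw [pow_one]; exact h
    exact key 1 one_ne_zero h'

/-- **(R9)** an integer divisible by `ϖ` in `A ∩ L` is divisible by `p` (the hypothesis `hchar` of
`Mon/WildPL43`). -/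
theorem dvd_of_unif_dvd_intCast (hd : PeuRamData p A L ϖ) (hp : p.Prime) {n : ℤ}
    (h : ϖ ∣ ((n : ℤ) : AK A L)) : (p : ℤ) ∣ n := by
  by_contra hn
  have hcop : IsCoprime (p : ℤ) n :=
    (Nat.prime_iff_prime_int.mp hp).coprime_iff_not_dvd.mpr hn
  obtain ⟨a, b, hab⟩ := hcop
  have h1 : ϖ ∣ (((a * (p : ℤ) + b * n : ℤ)) : AK A L) := by
    push_cast
    exact dvd_add (Dvd.dvd.mul_left (by exact_mod_cast unif_dvd_natCast hd hp) _)
      (Dvd.dvd.mul_left h _)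
  rw [hab] at h1
  have h2 : ϖ ∣ (1 : AK A L) := by exact_mod_cast h1
  exact not_isUnit_unif hd (isUnit_of_dvd_one h2)

end Fermat.Agent.M1.Ram.TameEps20
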