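/-
M1 (row 38, S44), chapter RAM (helper20): **(R6) inertial enlargement.**

If `PeuRamData p A L ϖ` and `K''` is a finite normal extension of `ℚ` fixed pointwise by the inertia
group `I_A` (e.g. `ℚ(ζ_M)`, `p ∤ M`), then `PeuRamData p A (L ⊔ K'') ϖ`: the same uniformiser, the same
ramification index, the same depth and break.  Hence in `PeuRam p A H` the field `L` may be assumed
to contain any given finite normal inertial field (`PeuRam.exists_ge`).

Route: `#(image of I_A in Gal(L ⊔ K''/ℚ)) ≤ #(image of I_A in Gal(L/ℚ)) = e` (`RamIdx20`), then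
helper73's packaging theorem `Pack73.peuRamData_of` (structure theorem of totally ramified
extensions + Serre IV §1 Lemma 1).
-/
import Mathlib
import Fermat.Agent.M1.Ram.WildCyclic20
import Fermat.Agent.M1.ES.Pack73

set_option autoImplicit false
set_option linter.unusedSectionVars false

namespace Fermat.Agent.M1.Ram.Enlarge20

open Fermat.Agent.RED.Interface4 Fermat.Agent.RED.DESC.NumberFieldDVR27
  Fermat.Agent.ES.N34.GalBase21 Fermat.Agent.M1.Ram.PeuRamDef20
  Fermat.Agent.M1.Ram.PeuRamLemmas20 Fermat.Agent.M1.Ram.RamIdx20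
  Fermat.Agent.M1.Ram.WildCyclic20

/-! ### `A`-valuations of elements of `A ∩ K` -/

section Val

variable {A : ValuationSubring Qbar} {K : IntermediateField ℚ Qbar}

theorem val_le_one (x : AK A K) : A.valuation ((x : K) : Qbar) ≤ 1 :=
  (A.valuation_le_one_iff _).mpr ((mem_AK_iff A K _).mp x.2)

theorem val_eq_one_of_isUnit {u : AK A K} (hu : IsUnit u) : A.valuation ((u : K) : Qbar) = 1 := by
  obtain ⟨w, rfl⟩ := hu
  have h1 := val_le_one (w : AK A K)
  have h2 := val_le_one ((w⁻¹ : (AK A K)ˣ) : AK A K)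
  have h3 : A.valuation (((w : AK A K) : K) : Qbar) *
      A.valuation ((((w⁻¹ : (AK A K)ˣ) : AK A K) : K) : Qbar) = 1 := by
    rw [← map_mul]
    have h4 : (((w : AK A K) : K) : Qbar) * ((((w⁻¹ : (AK A K)ˣ) : AK A K) : K) : Qbar) = 1 :=
      congrArg (fun z : AK A K => ((z : K) : Qbar)) (w.mul_inv)
    rw [h4, map_one]
  rcases lt_or_eq_of_le h1 with h | h
  · exfalso
    have : A.valuation (((w : AK A K) : K) : Qbar) *
        A.valuation ((((w⁻¹ : (AK A K)ˣ) : AK A K) : K) : Qbar) < 1 :=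
      mul_lt_one_of_nonneg_of_lt_one_left zero_le h h2
    rw [h3] at this
    exact lt_irrefl _ this
  · exact h

theorem val_eq_of_associated {a b : AK A K} (h : Associated a b) :
    A.valuation ((a : K) : Qbar) = A.valuation ((b : K) : Qbar) := by
  obtain ⟨u, rfl⟩ := h
  have h1 := val_eq_one_of_isUnit u.isUnit
  have h2 : (((a * (u : AK A K) : AK A K) : K) : Qbar) =
      ((a : K) : Qbar) * (((u : AK A K) : K) : Qbar) := by push_cast; rfl
  rw [h2, map_mul, h1, mul_one]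

end Val

/-! ### The inclusion `A ∩ L → A ∩ N` -/

section Incl

variable (A : ValuationSubring Qbar) {L N : IntermediateField ℚ Qbar}

/-- the inclusion `A ∩ L → A ∩ N` for `L ≤ N`. -/
noncomputable def inclAK (h : L ≤ N) : AK A L →+* AK A N :=
  ((IntermediateField.inclusion h : L →ₐ[ℚ] N) : L →+* N).restrict (AK A L) (AK A N)
    (fun x hx => (AK_mono_mem A L h x).mpr hx)

@[simp] theorem coe_inclAK (h : L ≤ N) (x : AK A L) :
    (((inclAK A h x : AK A N) : N) : Qbar) = ((x : L) : Qbar) := rfl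

end Incl

/-! ### Instances for a compositum (the `ℚ`-algebra diamond blocks Mathlib's instances) -/

instance instNormalSup20 (L K'' : IntermediateField ℚ Qbar) [h1 : Normal ℚ L]
    [h2 : Normal ℚ K''] : Normal ℚ ↥(L ⊔ K'') :=
  @IntermediateField.normal_sup ℚ Qbar _ _ _ L K'' h1 h2

instance instFiniteDimensionalSup20 (L K'' : IntermediateField ℚ Qbar)
    [h1 : FiniteDimensional ℚ L] [h2 : FiniteDimensional ℚ K''] :
    FiniteDimensional ℚ ↥(L ⊔ K'') :=
  @IntermediateField.finiteDimensional_sup ℚ Qbar _ _ _ L K'' h1 h2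

/-! ### Inertia on a compositum with an inertial field -/

section Sup

variable {A : ValuationSubring Qbar} (L K'' : IntermediateField ℚ Qbar) [Normal ℚ L]
  [Normal ℚ K'']

/-- an automorphism fixing `K''` pointwise and trivial on `L` is trivial on `L ⊔ K''`. -/
theorem resK_sup_eq_one {τ : Qbar ≃ₐ[ℚ] Qbar} (hK : ∀ x ∈ K'', τ x = x) (hL : resK L τ = 1) :
    resK (L ⊔ K'') τ = 1 := by
  apply resK_eq_one_of_mem_fixingSubgroup
  rw [IntermediateField.fixingSubgroup_sup]
  refine ⟨mem_fixingSubgroup_of_resK_eq_one hL, ?_⟩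
  exact (IntermediateField.mem_fixingSubgroup_iff K'' τ).mpr hK

variable [FiniteDimensional ℚ L] [FiniteDimensional ℚ K'']

/-- the image of inertia in `Gal(L ⊔ K''/ℚ)` is not bigger than in `Gal(L/ℚ)`. -/
theorem card_inertiaImage_sup_le (hK : ∀ τ ∈ A.inertiaSubgroupIn ℚ, ∀ x ∈ K'', τ x = x) :
    Nat.card (inertiaImage A (L ⊔ K'')) ≤ Nat.card (inertiaImage A L) := by
  classical
  have hch : ∀ g : inertiaImage A (L ⊔ K''), ∃ τ ∈ A.inertiaSubgroupIn ℚ,
      resK (L ⊔ K'') τ = g := fun g => (mem_inertiaImage A (L ⊔ K'')).mp g.2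
  choose τ hτ hτg using hch
  let f : inertiaImage A (L ⊔ K'') → inertiaImage A L :=
    fun g => ⟨resK L (τ g), resK_mem_inertiaImage A L (hτ g)⟩
  refine Nat.card_le_card_of_injective f ?_
  intro g₁ g₂ h
  have h1 : resK L (τ g₁) = resK L (τ g₂) := congrArg Subtype.val h
  have h2 : resK L ((τ g₁)⁻¹ * τ g₂) = 1 := by
    rw [resK_mul, resK_inv, h1, inv_mul_cancel]
  have h3 : (τ g₁)⁻¹ * τ g₂ ∈ A.inertiaSubgroupIn ℚ :=
    mul_mem (inv_mem (hτ g₁)) (hτ g₂)
  have h4 := resK_sup_eq_one L K'' (fun x hx => hK _ h3 x hx) h2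
  rw [resK_mul, resK_inv, inv_mul_eq_one] at h4
  apply Subtype.ext
  rw [← hτg g₁, ← hτg g₂, h4]

end Sup

/-! ### (R6) -/

section Main

variable {p : ℕ} {A : ValuationSubring Qbar} {L : IntermediateField ℚ Qbar} [Normal ℚ L]
  {ϖ : AK A L}

/-- **(R6) inertial enlargement of `PeuRamData`.** -/
theorem peuRamData_sup (hd : PeuRamData p A L ϖ) (hp : p.Prime) (hA : A.LiesOverPrime p)
    (K'' : IntermediateField ℚ Qbar) [Normal ℚ K''] [FiniteDimensional ℚ K'']
    (hK : ∀ τ ∈ A.inertiaSubgroupIn ℚ, ∀ x ∈ K'', τ x = x) :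
    PeuRamData p A (L ⊔ K'') (inclAK A le_sup_left ϖ) := by
  have hfinL : FiniteDimensional ℚ L := hd.finite
  have hmu : ∀ ζ : Qbar, ζ ^ p = 1 → ζ ∈ L ⊔ K'' := fun ζ hζ =>
    (le_sup_left : L ≤ L ⊔ K'') (hd.mu ζ hζ)
  -- the break
  have hbr : ∀ τ ∈ A.inertiaSubgroupIn ℚ, FixesMu p τ → resK (L ⊔ K'') τ ≠ 1 →
      A.valuation (τ (((inclAK A le_sup_left ϖ : AK A (L ⊔ K'')) : (L ⊔ K'' :
        IntermediateField ℚ Qbar)) : Qbar) -
        (((inclAK A le_sup_left ϖ : AK A (L ⊔ K'')) : (L ⊔ K'' :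
        IntermediateField ℚ Qbar)) : Qbar)) =
      A.valuation ((((inclAK A le_sup_left ϖ : AK A (L ⊔ K'')) : (L ⊔ K'' :
        IntermediateField ℚ Qbar)) : Qbar)) ^ 2 := by
    intro τ hτ hμ hne
    have hneL : resK L τ ≠ 1 := fun h =>
      hne (resK_sup_eq_one L K'' (fun x hx => hK τ hτ x hx) h)
    obtain ⟨θ, hθ, hθe⟩ := theta hd hτ hμ hneL
    rw [coe_inclAK]
    have h1 : τ ((ϖ : L) : Qbar) = ((ϖ : L) : Qbar) * (1 + ((θ : L) : Qbar) * ((ϖ : L) : Qbar)) := by
      rw [← coe_resK L τ (ϖ : L), hθe]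
      push_cast
      rfl
    have h2 : τ ((ϖ : L) : Qbar) - ((ϖ : L) : Qbar) =
        ((θ : L) : Qbar) * ((ϖ : L) : Qbar) ^ 2 := by rw [h1]; ring
    rw [h2, map_mul, map_pow, val_eq_one_of_isUnit hθ, one_mul]
  -- the cardinality and the exponent
  have key : ∀ e : ℕ, Associated (ϖ ^ e) ((p : ℕ) : AK A L) →
      Nat.card (Fermat.Agent.M1.ES.Pack73.IL A (L ⊔ K'')) ≤ e ∧
      A.valuation ((((inclAK A le_sup_left ϖ : AK A (L ⊔ K'')) : (L ⊔ K'' :
        IntermediateField ℚ Qbar)) : Qbar)) ^ e = A.valuation (p : Qbar) := by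
    intro e he
    constructor
    · have h1 := card_inertiaImage_sup_le (A := A) L K'' hK
      rw [card_inertiaImage A L hp hA hd.unif he] at h1
      exact h1
    · rw [coe_inclAK]
      have h1 := val_eq_of_associated he
      have h2 : (((ϖ ^ e : AK A L) : L) : Qbar) = ((ϖ : L) : Qbar) ^ e := by push_cast; rfl
      have h3 : ((((p : ℕ) : AK A L) : L) : Qbar) = (p : Qbar) := by push_cast; rfl
      rw [h2, h3, map_pow] at h1
      exact h1
  rcases hd.ram with h | h
  · obtain ⟨hc, hv⟩ := key _ h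
    exact Fermat.Agent.M1.ES.Pack73.peuRamData_of A (L ⊔ K'') hp hA hmu (Or.inl rfl) hc _ hv hbr
  · obtain ⟨hc, hv⟩ := key _ h
    exact Fermat.Agent.M1.ES.Pack73.peuRamData_of A (L ⊔ K'') hp hA hmu (Or.inr rfl) hc _ hv hbr

/-- **(R6), `PeuRam` form**: the field `L` of a peu ramifiée situation can be taken to contain any
given finite normal field fixed pointwise by inertia. -/
theorem PeuRam.exists_ge {H : Subgroup (Qbar ≃ₐ[ℚ] Qbar)} (hH : PeuRam p A H) (hp : p.Prime)
    (hA : A.LiesOverPrime p) (K'' : IntermediateField ℚ Qbar) [Normal ℚ K'']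
    [FiniteDimensional ℚ K''] (hK : ∀ τ ∈ A.inertiaSubgroupIn ℚ, ∀ x ∈ K'', τ x = x) :
    ∃ (L : IntermediateField ℚ Qbar) (_ : Normal ℚ L) (ϖ : AK A L),
      PeuRamData p A L ϖ ∧ L.fixingSubgroup ≤ H ∧ K'' ≤ L := by
  obtain ⟨L, hL, ϖ, hd, hle⟩ := hH
  refine ⟨L ⊔ K'', inferInstance, inclAK A le_sup_left ϖ, peuRamData_sup hd hp hA K'' hK, ?_,
    le_sup_right⟩
  intro σ hσ
  apply hle
  rw [IntermediateField.fixingSubgroup_sup] at hσ
  exact hσ.1

end Main

end Fermat.Agent.M1.Ram.Enlarge20
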