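/-
M1 / chapter RAM, brick (R6) (helper73): **`PeuRamData` is stable under inertial enlargement.**

If `PeuRamData p A L ϖ` holds and `K'` is a finite normal extension of `ℚ` on which the inertia
group of `A` acts trivially (this is literally `InertField27.InertFixed A K'` unfolded; e.g. `K' = ℚ(ζ_M)` with `p ∤ M`), then
`PeuRamData p A (L ⊔ K') ϖ` holds with the SAME element `ϖ`.  Hence `PeuRam p A H` can always be
realised by a field `L ⊇ K'`.

No residue-field statement is needed: the packaging theorem `Pack73.peuRamData_of` derives the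
`depth` field for all integral elements from `|I_A(L ⊔ K')| ≤ e`, `v ϖ ^ e = v p` and the break
formula on `ϖ`.
-/
import Mathlib
import Fermat.Agent.M1.ES.Pack73
import Fermat.Agent.M1.Ram.RamIdx20

set_option autoImplicit false
set_option linter.unusedSectionVars false

namespace Fermat.Agent.M1.Ram.Enlarge73

open Fermat.Agent.RED.Interface4 Fermat.Agent.RED.DESC Fermat.Agent.ES.N34.GalBase21
open Fermat.Agent.M1.Ram.PeuRamDef20 Fermat.Agent.M1.ES.Pack73
open Fermat.Agent.M1.Ram.PeuRamLemmas20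

local notation "GQ" => Qbar ≃ₐ[ℚ] Qbar

/-! ### Generalities on restriction to a compositum -/

section Generic

variable (L K' : IntermediateField ℚ Qbar)

/-- An automorphism fixing `L` and `K'` pointwise fixes `L ⊔ K'` pointwise. -/
theorem apply_eq_of_mem_sup {σ : GQ} (hL : ∀ x ∈ L, σ x = x) (hK : ∀ x ∈ K', σ x = x) {x : Qbar}
    (hx : x ∈ L ⊔ K') : σ x = x := by
  have key : ∀ y : Qbar, σ y = y → y ∈ IntermediateField.fixedField (Subgroup.zpowers σ) := by
    intro y hy
    rw [IntermediateField.mem_fixedField_iff]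
    intro g hg
    obtain ⟨k, rfl⟩ := Subgroup.mem_zpowers_iff.mp hg
    have h1 : σ ∈ MulAction.stabilizer GQ y := MulAction.mem_stabilizer_iff.mpr hy
    exact MulAction.mem_stabilizer_iff.mp (Subgroup.zpow_mem _ h1 k)
  have hle : L ⊔ K' ≤ IntermediateField.fixedField (Subgroup.zpowers σ) :=
    sup_le (fun y hy => key y (hL y hy)) (fun y hy => key y (hK y hy))
  exact (IntermediateField.mem_fixedField_iff _ x).mp (hle hx) σ (Subgroup.mem_zpowers σ)

/-- `Normal ℚ (L ⊔ K')` for the `ℚ`-algebra structure found by instance resolution (Mathlib's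
`IntermediateField.normal_sup` is stated for `IntermediateField.algebra'`). -/
instance normal_sup_rat [hL : Normal ℚ L] [hK : Normal ℚ K'] :
    Normal ℚ (L ⊔ K' : IntermediateField ℚ Qbar) := by
  have hL' : @Normal ℚ ↥L _ _ (IntermediateField.algebra' _) := by
    convert hL
    exact Subsingleton.elim _ _
  have hK' : @Normal ℚ ↥K' _ _ (IntermediateField.algebra' _) := by
    convert hK
    exact Subsingleton.elim _ _
  have h := @IntermediateField.normal_sup ℚ Qbar _ _ _ L K' hL' hK'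
  convert h
  exact Subsingleton.elim _ _

/-- Restrictions to `L ⊔ K'` agree as soon as restrictions to `L` and to `K'` agree. -/
theorem resK_sup_eq [Normal ℚ L] [Normal ℚ K']
    {τ τ' : GQ} (hL : resK L τ = resK L τ') (hK : ∀ x ∈ K', τ x = τ' x) :
    resK (L ⊔ K') τ = resK (L ⊔ K') τ' := by
  have hL' : ∀ x ∈ L, τ x = τ' x := by
    intro x hx
    have := congrArg (fun g : L ≃ₐ[ℚ] L => ((g ⟨x, hx⟩ : L) : Qbar)) hL
    simpa only [coe_resK] using this
  have hfix : ∀ x ∈ L ⊔ K', (τ⁻¹ * τ') x = x := by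
    intro x hx
    refine apply_eq_of_mem_sup L K' (σ := τ⁻¹ * τ') ?_ ?_ hx
    · intro y hy
      rw [AlgEquiv.mul_apply, ← hL' y hy, ← AlgEquiv.mul_apply, inv_mul_cancel,
        AlgEquiv.one_apply]
    · intro y hy
      rw [AlgEquiv.mul_apply, ← hK y hy, ← AlgEquiv.mul_apply, inv_mul_cancel,
        AlgEquiv.one_apply]
  apply AlgEquiv.ext
  intro a
  apply Subtype.ext
  rw [coe_resK, coe_resK]
  have := hfix a a.2
  rw [AlgEquiv.mul_apply] at this
  calc τ (a : Qbar) = τ (τ⁻¹ (τ' (a : Qbar))) := by rw [this]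
    _ = τ' (a : Qbar) := by
      rw [← AlgEquiv.mul_apply, mul_inv_cancel, AlgEquiv.one_apply]

end Generic

/-! ### Valuations of units and associated elements -/

section Val

variable {A : ValuationSubring Qbar} {L : IntermediateField ℚ Qbar}

theorem val_le_one (x : AK A L) : A.valuation ((x : L) : Qbar) ≤ 1 :=
  (ValuationSubring.valuation_le_one_iff A _).mpr ((NumberFieldDVR27.mem_AK_iff A L _).mp x.2)

/-- A unit of `A ∩ L` has valuation `1`. -/
theorem val_unit {u : AK A L} (hu : IsUnit u) : A.valuation ((u : L) : Qbar) = 1 := by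
  obtain ⟨w, hw⟩ := hu.exists_right_inv
  have h1 : A.valuation ((u : L) : Qbar) * A.valuation ((w : L) : Qbar) = 1 := by
    rw [← map_mul]
    have : ((u : L) : Qbar) * ((w : L) : Qbar) = (((u * w : AK A L) : L) : Qbar) := by
      push_cast; rfl
    rw [this, hw]
    simp
  refine le_antisymm (val_le_one u) ?_
  calc (1 : A.ValueGroup) = A.valuation ((u : L) : Qbar) * A.valuation ((w : L) : Qbar) := h1.symm
    _ ≤ A.valuation ((u : L) : Qbar) := mul_le_of_le_one_right' (val_le_one w)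

/-- Associated elements of `A ∩ L` have the same valuation. -/
theorem val_eq_of_assoc {a b : AK A L} (h : Associated a b) :
    A.valuation ((a : L) : Qbar) = A.valuation ((b : L) : Qbar) := by
  obtain ⟨u, rfl⟩ := h
  have : (((a * (u : AK A L) : AK A L) : L) : Qbar) = ((a : L) : Qbar) * (((u : AK A L) : L) : Qbar) := by
    push_cast; rfl
  rw [this, map_mul, val_unit u.isUnit, mul_one]

end Val

/-! ### The enlargement theorem -/

section Main

variable {p : ℕ} {A : ValuationSubring Qbar} {L : IntermediateField ℚ Qbar} [Normal ℚ L]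
  {ϖ : AK A L}

/-- An element of `A ∩ L` viewed in `A ∩ (L ⊔ K')`. -/
def liftAK (K' : IntermediateField ℚ Qbar) (x : AK A L) :
    AK A (L ⊔ K' : IntermediateField ℚ Qbar) :=
  ⟨⟨((x : L) : Qbar), (le_sup_left : L ≤ L ⊔ K') (x : L).2⟩,
    (NumberFieldDVR27.mem_AK_iff A (L ⊔ K') _).mpr ((NumberFieldDVR27.mem_AK_iff A L _).mp x.2)⟩

theorem coe_liftAK (K' : IntermediateField ℚ Qbar) (x : AK A L) :
    (((liftAK K' x : AK A (L ⊔ K' : IntermediateField ℚ Qbar)) :
      (L ⊔ K' : IntermediateField ℚ Qbar)) : Qbar) = ((x : L) : Qbar) := rfl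

/-- The inertia image in `Gal(L ⊔ K'/ℚ)` injects into the inertia image in `Gal(L/ℚ)` when
inertia acts trivially on `K'`. -/
theorem card_IL_sup_le [FiniteDimensional ℚ L] (K' : IntermediateField ℚ Qbar) [Normal ℚ K']
    (hK' : ∀ τ ∈ A.inertiaSubgroupIn ℚ, ∀ x ∈ K', τ x = x) :
    Nat.card (IL A (L ⊔ K')) ≤ Nat.card (IL A L) := by
  have hex : ∀ g : IL A (L ⊔ K'), ∃ τ : A.inertiaSubgroupIn ℚ,
      resK (L ⊔ K') (τ : GQ) = (g : ↥(L ⊔ K') ≃ₐ[ℚ] ↥(L ⊔ K')) := by
    intro g
    obtain ⟨τ, hτ, hg⟩ := g.2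
    exact ⟨⟨τ, hτ⟩, hg⟩
  choose τ hτ using hex
  apply Nat.card_le_card_of_injective
    (fun g => (⟨resK L (τ g : GQ), resK_mem_IL A L (τ g).2⟩ : IL A L))
  intro g g' h
  have h1 : resK L (τ g : GQ) = resK L (τ g' : GQ) := congrArg Subtype.val h
  have h2 := resK_sup_eq L K' h1
    (fun x hx => by rw [hK' _ (τ g).2 x hx, hK' _ (τ g').2 x hx])
  rw [hτ, hτ] at h2
  exact Subtype.ext h2

/-- **(R6) Inertial enlargement.**  `PeuRamData p A L ϖ` implies `PeuRamData p A (L ⊔ K') ϖ` for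
every finite normal `K'` on which the inertia group of `A` acts trivially. -/
theorem peuRamData_sup (hd : PeuRamData p A L ϖ) (hp : p.Prime) (hA : A.LiesOverPrime p)
    (K' : IntermediateField ℚ Qbar) [Normal ℚ K'] [FiniteDimensional ℚ K']
    (hK' : ∀ τ ∈ A.inertiaSubgroupIn ℚ, ∀ x ∈ K', τ x = x) :
    PeuRamData p A (L ⊔ K') (liftAK K' ϖ) := by
  have hfin := hd.finite
  obtain ⟨N, hN, hassoc⟩ : ∃ N, (N = p * (p - 1) ∨ N = p - 1) ∧
      Associated (ϖ ^ N) ((p : ℕ) : AK A L) := by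
    rcases hd.ram with h | h
    exacts [⟨_, Or.inl rfl, h⟩, ⟨_, Or.inr rfl, h⟩]
  have hcardL : Nat.card (IL A L) = N := RamIdx20.card_inertiaImage A L hp hA hd.unif hassoc
  have hval : A.valuation ((ϖ : L) : Qbar) ^ N = A.valuation (p : Qbar) := by
    have h := val_eq_of_assoc hassoc
    have e1 : (((ϖ ^ N : AK A L) : L) : Qbar) = ((ϖ : L) : Qbar) ^ N := by push_cast; rfl
    have e2 : ((((p : ℕ) : AK A L) : L) : Qbar) = (p : Qbar) := by push_cast; rfl
    rw [e1, e2, map_pow] at h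
    exact h
  refine peuRamData_of A (L ⊔ K') hp hA (fun ζ hζ => (le_sup_left : L ≤ L ⊔ K') (hd.mu ζ hζ)) hN
    ?_ (liftAK K' ϖ) hval ?_
  · rw [← hcardL]
    exact card_IL_sup_le K' hK'
  · intro τ hτ hμ hne
    have hneL : resK L τ ≠ 1 := by
      intro h1
      apply hne
      have h2 := resK_sup_eq L K' (τ := τ) (τ' := 1) (by rw [h1, resK_one])
        (fun x hx => by rw [hK' τ hτ x hx]; rfl)
      rw [h2, resK_one]
    obtain ⟨θ, hθ, hθe⟩ := theta hd hτ hμ hneL
    have h1 : τ ((ϖ : L) : Qbar) =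
        ((ϖ : L) : Qbar) * (1 + ((θ : L) : Qbar) * ((ϖ : L) : Qbar)) := by
      have h3 := congrArg (fun x : L => (x : Qbar)) hθe
      simp only [coe_resK] at h3
      rw [h3]
      push_cast
      rfl
    show A.valuation (τ ((ϖ : L) : Qbar) - ((ϖ : L) : Qbar)) = A.valuation ((ϖ : L) : Qbar) ^ 2
    rw [h1]
    have h4 : ((ϖ : L) : Qbar) * (1 + ((θ : L) : Qbar) * ((ϖ : L) : Qbar)) - ((ϖ : L) : Qbar) =
        ((θ : L) : Qbar) * ((ϖ : L) : Qbar) ^ 2 := by ring
    rw [h4, map_mul, val_unit hθ, one_mul, map_pow]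

/-- **(R6), `PeuRam` form.**  A peu ramifié pair `(A, H)` can be realised by a field containing any
given finite normal `K'` on which inertia acts trivially. -/
theorem peuRam_enlarge {H : Subgroup GQ} (h : PeuRam p A H) (hp : p.Prime)
    (hA : A.LiesOverPrime p) (K' : IntermediateField ℚ Qbar) [Normal ℚ K']
    [FiniteDimensional ℚ K'] (hK' : ∀ τ ∈ A.inertiaSubgroupIn ℚ, ∀ x ∈ K', τ x = x) :
    ∃ (L : IntermediateField ℚ Qbar) (_ : Normal ℚ L) (ϖ : AK A L),
      PeuRamData p A L ϖ ∧ L.fixingSubgroup ≤ H ∧ K' ≤ L := by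
  obtain ⟨L, hL, ϖ, hd, hle⟩ := h
  refine ⟨L ⊔ K', inferInstance, liftAK K' ϖ, peuRamData_sup hd hp hA K' hK', ?_, le_sup_right⟩
  refine le_trans ?_ hle
  exact IntermediateField.fixingSubgroup_le (le_sup_left : L ≤ L ⊔ K')

end Main

end Fermat.Agent.M1.Ram.Enlarge73
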