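/-
M1 / chapter RAM (helper73): **`PeuRamData` is stable under adjoining a root of unity of order prime
to `p`** — the `L`-side of the RAT-NODES enlargement `L := L₀ ⊔ ℚ⟮z⟯`
(`Mod/RatNodesFinal73.exists_cyclo_rat_nodes`), a corollary of `Ram/Enlarge73.peuRamData_sup`.

* `normal_adjoin_rootOfUnity` : `ℚ⟮z⟯` is normal over `ℚ` for a primitive root of unity `z`.
* `peuRamData_sup_rootOfUnity` : `PeuRamData p A L ϖ → PeuRamData p A (L ⊔ ℚ⟮z⟯) (liftAK ℚ⟮z⟯ ϖ)`,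
  `z` a primitive `m`-th root of unity, `p ∤ m`.
* `exists_peuRamData_sup_rootOfUnity` : the same in existential form (with the `Normal` and
  `FiniteDimensional` instances of `L ⊔ ℚ⟮z⟯` and `L ≤ L ⊔ ℚ⟮z⟯`), the shape of the hypothesis `hL`
  of `Tri/Descent43.hcore_of_fields`.
-/
import Mathlib
import Fermat.Agent.ES.P36.ZetaUnr26
import Fermat.Agent.M1.Ram.Enlarge73

set_option autoImplicit false
set_option linter.unusedSectionVars false
set_option linter.style.haveILetI false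

namespace Fermat.Agent.M1.Ram.EnlargeCyclo73

open IntermediateField
open Fermat.Agent.RED.Interface4 Fermat.Agent.RED.DESC
open Fermat.Agent.M1.Ram.PeuRamDef20 Fermat.Agent.M1.Ram.Enlarge73

/-- `ℚ⟮z⟯` is normal over `ℚ` for a primitive root of unity `z`. -/
theorem normal_adjoin_rootOfUnity {m : ℕ} (hm : m ≠ 0) {z : Qbar} (hz : IsPrimitiveRoot z m) :
    Normal ℚ ↥(ℚ⟮z⟯ : IntermediateField ℚ Qbar) := by
  have hQ : Normal ℚ Qbar := inferInstance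
  refine (IntermediateField.normal_iff_forall_map_le' (F := ℚ) (K := ℚ⟮z⟯) (L := Qbar)).mpr ?_
  rintro σ _ ⟨x, hx, rfl⟩
  exact Fermat.Agent.ES.P36.ZetaUnr26.adjoin_rootOfUnity_stable hm hz σ x hx

variable {p : ℕ} {A : ValuationSubring Qbar} {L : IntermediateField ℚ Qbar} [Normal ℚ L]
  {ϖ : AK A L}

/-- **`PeuRamData` after adjoining a root of unity of order prime to `p`.** -/
theorem peuRamData_sup_rootOfUnity (hd : PeuRamData p A L ϖ) (hp : p.Prime)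
    (hA : A.LiesOverPrime p) {m : ℕ} (hm : ¬ p ∣ m) {z : Qbar} (hz : IsPrimitiveRoot z m) :
    haveI : Normal ℚ ↥(ℚ⟮z⟯ : IntermediateField ℚ Qbar) :=
      normal_adjoin_rootOfUnity (fun h0 => hm (by rw [h0]; exact dvd_zero p)) hz
    PeuRamData p A (L ⊔ ℚ⟮z⟯) (liftAK ℚ⟮z⟯ ϖ) := by
  have hm0 : m ≠ 0 := fun h0 => hm (by rw [h0]; exact dvd_zero p)
  haveI : Normal ℚ ↥(ℚ⟮z⟯ : IntermediateField ℚ Qbar) := normal_adjoin_rootOfUnity hm0 hz
  obtain ⟨hfin, -, hfix⟩ :=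
    Fermat.Agent.ES.P36.ZetaUnr26.adjoin_rootOfUnity_fixed hp hA hm hz.pow_eq_one
  haveI := hfin
  exact peuRamData_sup hd hp hA ℚ⟮z⟯ hfix

/-- **Existential form** (shape of `hL` in `Tri/Descent43.hcore_of_fields`). -/
theorem exists_peuRamData_sup_rootOfUnity (hd : PeuRamData p A L ϖ) (hp : p.Prime)
    (hA : A.LiesOverPrime p) {m : ℕ} (hm : ¬ p ∣ m) {z : Qbar} (hz : IsPrimitiveRoot z m) :
    ∃ (_ : Normal ℚ ↥(L ⊔ ℚ⟮z⟯)) (_ : FiniteDimensional ℚ ↥(L ⊔ ℚ⟮z⟯))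
      (ϖ' : AK A (L ⊔ ℚ⟮z⟯)), L ≤ L ⊔ ℚ⟮z⟯ ∧ PeuRamData p A (L ⊔ ℚ⟮z⟯) ϖ' := by
  have hm0 : m ≠ 0 := fun h0 => hm (by rw [h0]; exact dvd_zero p)
  haveI : Normal ℚ ↥(ℚ⟮z⟯ : IntermediateField ℚ Qbar) := normal_adjoin_rootOfUnity hm0 hz
  have h := peuRamData_sup_rootOfUnity hd hp hA hm hz
  exact ⟨inferInstance, h.finite, liftAK ℚ⟮z⟯ ϖ, le_sup_left, h⟩

end Fermat.Agent.M1.Ram.EnlargeCyclo73
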