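/-
M1 (row 38, S44), chapter RAM (helper20): **Galois correspondence for the inertia image.**

`L ⊂ ℚ̄` finite normal.  An automorphism of `L` fixing pointwise the elements of `L` fixed by the
inertia group `I_A` (i.e. fixing `inertiaPart A L`) is induced by an element of `I_A`; the same for
the wild part (elements of `I_A` fixing `μ_p`).  This is the input `Gal(L/K') = image of I_A` of the
totally ramified step (`Mod/TotRam34.Hyp.stab`).
-/
import Mathlib
import Fermat.Agent.M1.Ram.WildCyclic20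

set_option autoImplicit false
set_option linter.unusedSectionVars false

namespace Fermat.Agent.M1.Ram.InertiaGal20

open Fermat.Agent.RED.Interface4 Fermat.Agent.ES.N34.GalBase21
  Fermat.Agent.M1.Ram.PeuRamDef20 Fermat.Agent.M1.Ram.RamIdx20 Fermat.Agent.M1.Ram.WildCyclic20

variable (A : ValuationSubring Qbar) (L : IntermediateField ℚ Qbar) [Normal ℚ L]
  [FiniteDimensional ℚ L]

/-- Artin: an automorphism of `L` fixing every element fixed by a subgroup `H ≤ Gal(L/ℚ)` lies in
`H`. -/
theorem mem_of_fixes_fixed (H : Subgroup (L ≃ₐ[ℚ] L)) (σ : L ≃ₐ[ℚ] L)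
    (hσ : ∀ x : L, (∀ h ∈ H, h x = x) → σ x = x) : σ ∈ H := by
  have h1 : σ ∈ IntermediateField.fixingSubgroup (IntermediateField.fixedField H) := by
    rw [IntermediateField.mem_fixingSubgroup_iff]
    intro x hx
    apply hσ x
    intro h hh
    exact (IntermediateField.mem_fixedField_iff H x).mp hx h hh
  rwa [IntermediateField.fixingSubgroup_fixedField] at h1

/-- **an automorphism of `L` fixing the `I_A`-fixed elements of `L` is induced by `I_A`.** -/
theorem exists_inertia_of_fixes (σ : L ≃ₐ[ℚ] L)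
    (hσ : ∀ x : L, (∀ τ ∈ A.inertiaSubgroupIn ℚ, τ (x : Qbar) = x) → σ x = x) :
    ∃ τ ∈ A.inertiaSubgroupIn ℚ, resK L τ = σ := by
  have h := mem_of_fixes_fixed L (inertiaImage A L) σ ?_
  · exact (mem_inertiaImage A L).mp h
  · intro x hx
    apply hσ x
    intro τ hτ
    have := hx (resK L τ) (resK_mem_inertiaImage A L hτ)
    rw [← coe_resK L τ x, this]

/-- the same for the wild part: an automorphism of `L` fixing the elements of `L` fixed by all
`τ ∈ I_A` fixing `μ_p` is induced by such a `τ`. -/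
theorem exists_wild_of_fixes (p : ℕ) (σ : L ≃ₐ[ℚ] L)
    (hσ : ∀ x : L, (∀ τ ∈ A.inertiaSubgroupIn ℚ, FixesMu p τ → τ (x : Qbar) = x) → σ x = x) :
    ∃ τ ∈ A.inertiaSubgroupIn ℚ, FixesMu p τ ∧ resK L τ = σ := by
  have h := mem_of_fixes_fixed L (wildImage A L p) σ ?_
  · exact mem_wildImage.mp h
  · intro x hx
    apply hσ x
    intro τ hτ hμ
    have := hx (resK L τ) (mem_wildImage.mpr ⟨τ, hτ, hμ, rfl⟩)
    rw [← coe_resK L τ x, this]

/-- an element of `G_ℚ` fixing the `I_A`-fixed elements of `L` agrees on `L` with an element of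
`I_A`. -/
theorem exists_inertia_of_fixes' (σ : Qbar ≃ₐ[ℚ] Qbar)
    (hσ : ∀ x ∈ L, (∀ τ ∈ A.inertiaSubgroupIn ℚ, τ x = x) → σ x = x) :
    ∃ τ ∈ A.inertiaSubgroupIn ℚ, ∀ x ∈ L, σ x = τ x := by
  obtain ⟨τ, hτ, h⟩ := exists_inertia_of_fixes A L (resK L σ) (by
    intro x hx
    apply Subtype.ext
    rw [coe_resK]
    exact hσ x x.2 hx)
  refine ⟨τ, hτ, fun x hx => ?_⟩
  have := congrArg (fun g : L ≃ₐ[ℚ] L => ((g ⟨x, hx⟩ : L) : Qbar)) h
  simp only [coe_resK] at this
  exact this.symm

end Fermat.Agent.M1.Ram.InertiaGal20
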