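/-
M1 (row 38, S44) / ORD (S33), chapter RAM (helper20): **tame inertia on an ARBITRARY finite normal
field `K ⊂ ℚ̄` containing `μ_p`** (no peu ramifié hypothesis).

`A` over `p`, `ϖ` a uniformiser of `A ∩ K` (`IsUnifAK`), `ζ` a primitive `p`-th root of unity,
`z = ζ - 1 ~ ϖ ^ d` (`d = e_K / (p - 1)`).  For `τ ∈ I_A` with `τ ζ = ζ ^ c`:

* `tame_depth`   : `τ a - a ∈ ϖ (A ∩ K)`;
* `exists_eps`   : `τ ϖ = ϖ ε`, `ε` a unit (`ε mod ϖ = θ₀(τ)`, the fundamental character of level `e`);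
* `eps_pow_sub`  : `ε ^ d ≡ c` modulo `ϖ`   (`θ₀ ^ d = ω`): inertia acts on `gr^d` through the
  cyclotomic character — the hypothesis of `Car/Defs43.smul_sub_nsmul_mem_cart` at `n = d`;
* `exists_unif`, `exists_pow_associated`, `associated_pow_mul` : `A ∩ K` is a DVR; `ϖ ^ (d (p-1)) ~ p`.
-/
import Mathlib
import Fermat.Agent.M1.Ram.TameEps20

set_option autoImplicit false
set_option linter.unusedSectionVars false

namespace Fermat.Agent.M1.Ram.TameGen20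

open Fermat.Agent.RED.Interface4 Fermat.Agent.RED.DESC.NumberFieldDVR27
  Fermat.Agent.ES.N34.GalBase21 Fermat.Agent.M1.Ram.PeuRamLemmas20
  Fermat.Agent.M1.Ram.CycloVal20 Fermat.Agent.M1.Ram.WildCyclic20

variable {A : ValuationSubring Qbar} {K : IntermediateField ℚ Qbar}

/-- `ϖ` is a uniformiser of `A ∩ K`. -/
structure IsUnifAK (A : ValuationSubring Qbar) (K : IntermediateField ℚ Qbar) (ϖ : AK A K) :
    Prop where
  unif : ∀ x : AK A K, ¬ IsUnit x ↔ ϖ ∣ x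
  ne_zero : ϖ ≠ 0

theorem IsUnifAK.not_isUnit {ϖ : AK A K} (h : IsUnifAK A K ϖ) : ¬ IsUnit ϖ :=
  (h.unif ϖ).mpr dvd_rfl

/-- `A ∩ K` has a uniformiser (`K` a number field, `A` over a prime). -/
theorem exists_unif [FiniteDimensional ℚ K] {q : ℕ} (hq : q.Prime) (hA : A.LiesOverPrime q) :
    ∃ ϖ : AK A K, IsUnifAK A K ϖ := by
  have := isDiscreteValuationRing_AK A K hq.ne_zero hA
  obtain ⟨ϖ, hϖ⟩ := IsDiscreteValuationRing.exists_irreducible (AK A K)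
  refine ⟨ϖ, ⟨fun x => ?_, hϖ.ne_zero⟩⟩
  have hmax := (IsDiscreteValuationRing.irreducible_iff_uniformizer ϖ).mp hϖ
  rw [← mem_nonunits_iff, ← IsLocalRing.mem_maximalIdeal, hmax, Ideal.mem_span_singleton]

/-- every nonzero element is `ϖ ^ n` times a unit. -/
theorem exists_pow_associated [FiniteDimensional ℚ K] {q : ℕ} (hq : q.Prime)
    (hA : A.LiesOverPrime q) {ϖ : AK A K} (h : IsUnifAK A K ϖ) {x : AK A K} (hx : x ≠ 0) :
    ∃ n : ℕ, Associated x (ϖ ^ n) := by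
  have := isDiscreteValuationRing_AK A K hq.ne_zero hA
  have hirr : Irreducible ϖ := by
    rw [IsDiscreteValuationRing.irreducible_iff_uniformizer]
    ext y
    rw [IsLocalRing.mem_maximalIdeal, mem_nonunits_iff, Ideal.mem_span_singleton]
    exact h.unif y
  exact IsDiscreteValuationRing.associated_pow_irreducible hx hirr

section Normal

variable [Normal ℚ K] {ϖ : AK A K}

theorem tame_depth (h : IsUnifAK A K ϖ) {τ : Qbar ≃ₐ[ℚ] Qbar}
    (hτ : τ ∈ A.inertiaSubgroupIn ℚ) (a : AK A K) :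
    ∃ b : AK A K, resAK K (mem_decomposition_of_mem_inertia A hτ) a - a = ϖ * b := by
  have h1 := resK_sub_mem_maximalIdeal A K hτ a
  rw [IsLocalRing.mem_maximalIdeal, mem_nonunits_iff] at h1
  obtain ⟨b, hb⟩ := (h.unif _).mp h1
  exact ⟨b, hb⟩

/-- `τ ϖ = ϖ ε` with `ε` a unit, for `τ ∈ I_A`. -/
theorem exists_eps (h : IsUnifAK A K ϖ) {τ : Qbar ≃ₐ[ℚ] Qbar}
    (hτ : τ ∈ A.inertiaSubgroupIn ℚ) :
    ∃ ε : AK A K, IsUnit ε ∧ resAK K (mem_decomposition_of_mem_inertia A hτ) ϖ = ϖ * ε := by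
  have hτD := mem_decomposition_of_mem_inertia A hτ
  have hτi : τ⁻¹ ∈ A.inertiaSubgroupIn ℚ := inv_mem hτ
  have hτiD := mem_decomposition_of_mem_inertia A hτi
  obtain ⟨b, hb⟩ := tame_depth h hτ ϖ
  obtain ⟨b', hb'⟩ := tame_depth h hτi ϖ
  have e1 : resAK K hτD ϖ = ϖ * (1 + b) := by linear_combination hb
  have e2 : resAK K hτiD ϖ = ϖ * (1 + b') := by linear_combination hb'
  refine ⟨1 + b, ?_, e1⟩
  have e3 : resAK K hτiD (resAK K hτD ϖ) = ϖ := by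
    apply Subtype.ext
    rw [coe_resAK, coe_resAK, resK_inv]
    exact (resK K τ).symm_apply_apply _
  rw [e1, map_mul, e2] at e3
  have e4 : (1 + b') * resAK K hτiD (1 + b) = 1 := by
    apply mul_left_cancel₀ h.ne_zero
    rw [mul_one, ← mul_assoc]
    exact e3
  have hu : IsUnit (resAK K hτiD (1 + b)) := IsUnit.of_mul_eq_one_right _ e4
  have e5 : resAK K hτD (resAK K hτiD (1 + b)) = 1 + b := by
    apply Subtype.ext
    rw [coe_resAK, coe_resAK, resK_inv]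
    exact (resK K τ).apply_symm_apply _
  rw [← e5]
  exact hu.map (resAK K hτD)

/-- a `p`-th root of unity of `K` as an element of `A ∩ K`. -/
def zetaK {p : ℕ} (hp : p ≠ 0) {ζ : Qbar} (hζK : ζ ∈ K) (hζ : ζ ^ p = 1) : AK A K :=
  ⟨⟨ζ, hζK⟩, (mem_AK_iff A K _).mpr (zeta_mem_A hp hζ)⟩

/-- `(ζ - 1) ^ (p - 1) ~ p` in `A ∩ K`. -/
theorem zeta_sub_one_pow {p : ℕ} (hp : p.Prime) {ζ : Qbar} (hζK : ζ ∈ K) (hζ : ζ ^ p = 1)
    (hζ1 : ζ ≠ 1) :
    Associated ((zetaK (A := A) hp.ne_zero hζK hζ - 1) ^ (p - 1)) ((p : ℕ) : AK A K) := by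
  classical
  rw [associated_iff_val_eq]
  have hprim : IsPrimitiveRoot (⟨ζ, hζK⟩ : K) p := by
    have h1 : (⟨ζ, hζK⟩ : K) ^ p = 1 := Subtype.ext (by simpa using hζ)
    have h2 : (⟨ζ, hζK⟩ : K) ≠ 1 := fun h => hζ1 (congrArg Subtype.val h)
    have : Fact p.Prime := ⟨hp⟩
    have h3 := IsPrimitiveRoot.orderOf (⟨ζ, hζK⟩ : K)
    rwa [orderOf_eq_prime h1 h2] at h3
  have h := val_sub_one_pow_eq (v := (AK A K).valuation) hp hprim
  have e1 : (((zetaK (A := A) hp.ne_zero hζK hζ - 1) ^ (p - 1) : AK A K) : K) =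
      ((⟨ζ, hζK⟩ : K) - 1) ^ (p - 1) := rfl
  have e2 : ((((p : ℕ) : AK A K)) : K) = (p : K) := by push_cast; rfl
  rw [e1, e2, map_pow]
  exact h

/-- `ϖ ^ (d (p - 1)) ~ p` when `ζ - 1 ~ ϖ ^ d`. -/
theorem associated_pow_mul {p : ℕ} (hp : p.Prime) {ζ : Qbar} (hζK : ζ ∈ K) (hζ : ζ ^ p = 1)
    (hζ1 : ζ ≠ 1) {d : ℕ}
    (hd : Associated (zetaK (A := A) hp.ne_zero hζK hζ - 1) (ϖ ^ d)) :
    Associated (ϖ ^ (d * (p - 1))) ((p : ℕ) : AK A K) := by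
  rw [pow_mul]
  exact (hd.pow_pow (n := p - 1)).symm.trans (zeta_sub_one_pow hp hζK hζ hζ1)

/-- **`ε ^ d ≡ c` modulo `ϖ`** (`θ₀ ^ d = ω`). -/
theorem eps_pow_sub (h : IsUnifAK A K ϖ) {p : ℕ} (hp : p.Prime) {τ : Qbar ≃ₐ[ℚ] Qbar}
    (hτ : τ ∈ A.inertiaSubgroupIn ℚ) {ζ : Qbar} (hζK : ζ ∈ K) (hζ : ζ ^ p = 1) (hζ1 : ζ ≠ 1)
    (c : ℕ) (hc : τ ζ = ζ ^ c) {d : ℕ} (hd0 : d ≠ 0)
    (hd : Associated (zetaK (A := A) hp.ne_zero hζK hζ - 1) (ϖ ^ d)) {ε : AK A K}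
    (hε : resAK K (mem_decomposition_of_mem_inertia A hτ) ϖ = ϖ * ε) :
    ∃ b : AK A K, ε ^ d - c = ϖ * b := by
  have hτD := mem_decomposition_of_mem_inertia A hτ
  set ζ' : AK A K := zetaK (A := A) hp.ne_zero hζK hζ with hζ'
  set z : AK A K := ζ' - 1 with hz
  -- `σ ζ' = ζ' ^ c`
  have h0 : resAK K hτD ζ' = ζ' ^ c := by
    apply Subtype.ext
    apply Subtype.ext
    rw [coe_resAK, coe_resK]
    show τ ζ = _
    rw [hc]
    rfl
  obtain ⟨b, hb⟩ := pow_sub_one_sub ζ' c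
  have h3 : resAK K hτD z = c * z + z ^ 2 * b := by
    rw [hz, map_sub, map_one, h0]
    linear_combination hb
  -- `z ≠ 0`
  have hp1 : p - 1 ≠ 0 := Nat.sub_ne_zero_of_lt hp.one_lt
  have hpz := zeta_sub_one_pow (A := A) hp hζK hζ hζ1
  have hz0 : z ≠ 0 := by
    intro h0'
    rw [← hζ', ← hz, h0', zero_pow hp1] at hpz
    exact natCast_ne_zero_AK hp.ne_zero ((associated_zero_iff_eq_zero _).mp hpz.symm)
  have hzdvd : ϖ ∣ z := (dvd_pow_self ϖ hd0).trans hd.symm.dvd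
  obtain ⟨u, hu⟩ := hd
  obtain ⟨b', hb'⟩ := tame_depth h hτ (u : AK A K)
  have h4 : resAK K hτD (u : AK A K) = (u : AK A K) + ϖ * b' := by linear_combination hb'
  exact Fermat.Agent.M1.Ram.TameEps20.eps_pow_sub (resAK K hτD) c hu hε h3 h4 hzdvd hz0 u.isUnit

/-- `ζ - 1 ~ ϖ ^ d` for some `d ≠ 0` (`d = e_K / (p - 1)`). -/
theorem exists_depth [FiniteDimensional ℚ K] (h : IsUnifAK A K ϖ) {p : ℕ} (hp : p.Prime)
    (hA : A.LiesOverPrime p) {ζ : Qbar} (hζK : ζ ∈ K) (hζ : ζ ^ p = 1) (hζ1 : ζ ≠ 1) :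
    ∃ d : ℕ, d ≠ 0 ∧ Associated (zetaK (A := A) hp.ne_zero hζK hζ - 1) (ϖ ^ d) := by
  have hp1 : p - 1 ≠ 0 := Nat.sub_ne_zero_of_lt hp.one_lt
  have hpz := zeta_sub_one_pow (A := A) hp hζK hζ hζ1
  have hz0 : zetaK (A := A) hp.ne_zero hζK hζ - 1 ≠ 0 := by
    intro h0'
    rw [h0', zero_pow hp1] at hpz
    exact natCast_ne_zero_AK hp.ne_zero ((associated_zero_iff_eq_zero _).mp hpz.symm)
  obtain ⟨d, hd⟩ := exists_pow_associated hp hA h hz0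
  refine ⟨d, ?_, hd⟩
  rintro rfl
  rw [pow_zero] at hd
  have hu : IsUnit (zetaK (A := A) hp.ne_zero hζK hζ - 1) := hd.symm.isUnit isUnit_one
  have hu' : IsUnit (((p : ℕ) : AK A K)) := hpz.isUnit (hu.pow _)
  have hm := natCast_mem_maximalIdeal A K hA
  rw [IsLocalRing.mem_maximalIdeal, mem_nonunits_iff] at hm
  exact hm hu'

end Normal

end Fermat.Agent.M1.Ram.TameGen20
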